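import Mathlib

/-!
# Taylor coefficients at `0` of locally uniform limits, and of the Euler product

Helper module of seat `helper17` (project P-IGUSA, statement S28).
-/

set_option autoImplicit false

open Filter Topology Metric

namespace Fermat.Agent.H17

/-- Iterated derivatives of a locally uniform limit of holomorphic functions converge locally
uniformly. -/
theorem tendstoLocallyUniformlyOn_iteratedDeriv {ι : Type*} {φ : Filter ι} [φ.NeBot]
    {F : ι → ℂ → ℂ} {f : ℂ → ℂ} {U : Set ℂ} (hU : IsOpen U)
    (hf : TendstoLocallyUniformlyOn F f φ U)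
    (hF : ∀ᶠ n in φ, DifferentiableOn ℂ (F n) U) (m : ℕ) :
    TendstoLocallyUniformlyOn (fun n => iteratedDeriv m (F n)) (iteratedDeriv m f) φ U ∧
      ∀ᶠ n in φ, DifferentiableOn ℂ (iteratedDeriv m (F n)) U := by
  induction m with
  | zero =>
    simp only [iteratedDeriv_zero]
    exact ⟨hf, hF⟩
  | succ m ih =>
    obtain ⟨h1, h2⟩ := ih
    refine ⟨?_, ?_⟩
    · have := h1.deriv h2 hU
      simp only [iteratedDeriv_succ]
      exact this
    · filter_upwards [h2] with n hn
      rw [iteratedDeriv_succ]
      exact hn.deriv hU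

/-- The Taylor series at `0` of a function `ℂ → ℂ`, as a formal power series. -/
noncomputable def tay (G : ℂ → ℂ) : PowerSeries ℂ :=
  .mk fun m => (↑m.factorial)⁻¹ * iteratedDeriv m G 0

theorem coeff_tay (G : ℂ → ℂ) (m : ℕ) :
    (tay G).coeff m = (↑m.factorial)⁻¹ * iteratedDeriv m G 0 := by
  simp [tay]

theorem tay_congr {G H : ℂ → ℂ} (h : G =ᶠ[𝓝 0] H) : tay G = tay H := by
  ext m
  rw [coeff_tay, coeff_tay, h.iteratedDeriv_eq]

theorem tay_mul {G H : ℂ → ℂ} (hG : AnalyticAt ℂ G 0) (hH : AnalyticAt ℂ H 0) :
    tay (G * H) = tay G * tay H := by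
  ext m
  simp only [coeff_tay, iteratedDeriv_mul hG.contDiffAt hH.contDiffAt, Finset.mul_sum,
    PowerSeries.coeff_mul, Finset.Nat.sum_antidiagonal_eq_sum_range_succ_mk, Nat.succ_eq_add_one]
  refine Finset.sum_congr rfl fun i hi ↦ ?_
  rw [Nat.cast_choose _ (by grind)]
  field_simp [Nat.factorial_ne_zero]

theorem tay_one : tay (1 : ℂ → ℂ) = 1 := by
  ext m
  have h2 : iteratedDeriv m (1 : ℂ → ℂ) 0 = if m = 0 then 1 else 0 := by
    simpa [ite_apply] using! iteratedDeriv_const
  simp +contextual [coeff_tay, h2]

theorem tay_pow {G : ℂ → ℂ} (hG : AnalyticAt ℂ G 0) (n : ℕ) :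
    tay (G ^ n) = tay G ^ n := by
  induction n with
  | zero => simpa using tay_one
  | succ n ih =>
    rw [pow_succ, pow_succ, tay_mul (hG.pow n) hG, ih]

theorem tay_id : tay (fun q : ℂ => q) = PowerSeries.X := by
  ext m
  rw [coeff_tay, PowerSeries.coeff_X]
  rcases m with _ | _ | m
  · simp
  · simp [iteratedDeriv_one]
  · have : iteratedDeriv (m + 1 + 1) (fun q : ℂ => q) 0 = 0 := by
      rw [iteratedDeriv_succ', iteratedDeriv_succ']
      have h1 : deriv (fun q : ℂ => q) = fun _ => 1 := by
        funext x; simp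
      rw [h1]
      have h2 : deriv (fun _ : ℂ => (1 : ℂ)) = fun _ => 0 := by
        funext x; simp
      rw [h2]
      simp
    rw [this]
    simp

/-- Taylor coefficients of a polynomial function are the coefficients of the polynomial. -/
theorem tay_polynomial (p : Polynomial ℂ) :
    tay (fun q => p.eval q) = (p : PowerSeries ℂ) := by
  have hcd : ∀ (r : Polynomial ℂ) (m : ℕ), ContDiffAt ℂ m (fun x => Polynomial.eval x r) 0 := by
    intro r m
    have := (Polynomial.contDiff_aeval (𝕜 := ℂ) r (m : WithTop ℕ∞)).contDiffAt (x := (0 : ℂ))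
    simpa using this
  induction p using Polynomial.induction_on' with
  | add p q hp hq =>
    ext m
    have : (fun x => Polynomial.eval x (p + q)) =
        (fun x => Polynomial.eval x p) + (fun x => Polynomial.eval x q) := by
      funext x; simp
    rw [this, coeff_tay, iteratedDeriv_add (hcd p _) (hcd q _), mul_add,
      ← coeff_tay, ← coeff_tay, hp, hq]
    simp
  | monomial n a =>
    have h1 : (fun q => (Polynomial.monomial n a).eval q) = (fun _ => a) * (fun q : ℂ => q) ^ n := by
      funext x; simp [Polynomial.eval_monomial]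
    rw [h1, tay_mul (by fun_prop) (by fun_prop), tay_pow (by fun_prop), tay_id]
    have h2 : tay (fun _ : ℂ => a) = PowerSeries.C a := by
      ext m
      rw [coeff_tay, PowerSeries.coeff_C]
      rcases m with _ | m
      · simp
      · rw [iteratedDeriv_succ']
        have : deriv (fun _ : ℂ => a) = fun _ => 0 := by funext x; simp
        rw [this]; simp
    rw [h2]
    ext m
    simp [PowerSeries.coeff_C_mul, PowerSeries.coeff_X_pow, PowerSeries.coeff_monomial, eq_comm]

end Fermat.Agent.H17
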