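import Mathlib
import Fermat.Prelude.Def_ModularCurve_X0
import Fermat.Agent.H17.TaylorLimit

/-!
# The Taylor series of the Euler product `∏ (1 - q^(n+1))` is the formal product

Helper module of seat `helper17` (project P-IGUSA, statement S28).
-/

set_option autoImplicit false

open Filter Topology Metric
open scoped PowerSeries.WithPiTopology

namespace Fermat.Agent.H17

/-- The finite partial products of the Euler product, as polynomials over `ℤ`. -/
noncomputable def eulerPoly (s : Finset ℕ) : Polynomial ℤ :=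
  ∏ i ∈ s, (1 - Polynomial.X ^ (i + 1))

theorem eulerPoly_eval (s : Finset ℕ) (q : ℂ) :
    ((eulerPoly s).map (Int.castRingHom ℂ)).eval q = ∏ i ∈ s, (1 - q ^ (i + 1)) := by
  simp [eulerPoly, Polynomial.map_prod, Polynomial.eval_prod]

theorem eulerPoly_coe (s : Finset ℕ) :
    ((eulerPoly s : Polynomial ℤ) : PowerSeries ℤ) = ∏ i ∈ s, (1 - PowerSeries.X ^ (i + 1)) := by
  rw [eulerPoly, ← Polynomial.coeToPowerSeries.ringHom_apply, map_prod]
  simp

theorem tendsto_coeff_eulerPoly (m : ℕ) :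
    Tendsto (fun s : Finset ℕ => (((eulerPoly s).coeff m : ℤ) : ℂ)) atTop
      (𝓝 ((ModularCurve.etaProd.coeff m : ℤ) : ℂ)) := by
  have h1 : HasProd (fun n : ℕ => (1 - PowerSeries.X ^ (n + 1) : PowerSeries ℤ))
      ModularCurve.etaProd :=
    (PowerSeries.WithPiTopology.multipliable_one_sub_X_pow ℤ).hasProd
  have h2 : Tendsto (fun s : Finset ℕ => ∏ i ∈ s, (1 - PowerSeries.X ^ (i + 1) : PowerSeries ℤ))
      atTop (𝓝 ModularCurve.etaProd) := h1
  have h3 := ((PowerSeries.WithPiTopology.continuous_coeff ℤ m).tendsto _).comp h2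
  have h4 : Continuous (fun n : ℤ => (n : ℂ)) := continuous_of_discreteTopology
  have h5 := (h4.tendsto _).comp h3
  refine h5.congr fun s => ?_
  simp only [Function.comp_apply]
  rw [← eulerPoly_coe, Polynomial.coeff_coe]

theorem tay_tprod_one_sub_pow :
    tay (fun q : ℂ => ∏' n : ℕ, (1 - q ^ (n + 1))) =
      PowerSeries.map (Int.castRingHom ℂ) ModularCurve.etaProd := by
  ext m
  rw [PowerSeries.coeff_map, coeff_tay]
  have hU : TendstoLocallyUniformlyOn (fun (s : Finset ℕ) (q : ℂ) => ∏ i ∈ s, (1 - q ^ (i + 1)))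
      (fun q : ℂ => ∏' n : ℕ, (1 - q ^ (n + 1))) atTop (ball (0 : ℂ) 1) :=
    ModularForm.multipliableLocallyUniformlyOn_one_sub_pow.hasProdLocallyUniformlyOn
  have hF : ∀ᶠ s : Finset ℕ in atTop,
      DifferentiableOn ℂ (fun q : ℂ => ∏ i ∈ s, (1 - q ^ (i + 1))) (ball (0 : ℂ) 1) :=
    .of_forall fun s => by
      simpa [Finset.prod_fn] using
        DifferentiableOn.finsetProd (u := s) (f := fun (i : ℕ) (q : ℂ) => 1 - q ^ (i + 1))
          (s := ball (0 : ℂ) 1) (fun _ _ ↦ by fun_prop)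
  have h0 : (0 : ℂ) ∈ ball (0 : ℂ) 1 := mem_ball_self one_pos
  have h1 := ((tendstoLocallyUniformlyOn_iteratedDeriv isOpen_ball hU hF m).1.tendsto_at h0)
  have h2 : Tendsto (fun s : Finset ℕ => (↑m.factorial : ℂ)⁻¹ *
      iteratedDeriv m (fun q : ℂ => ∏ i ∈ s, (1 - q ^ (i + 1))) 0) atTop
      (𝓝 ((↑m.factorial : ℂ)⁻¹ * iteratedDeriv m (fun q : ℂ => ∏' n : ℕ, (1 - q ^ (n + 1))) 0)) :=
    h1.const_mul _
  have h3 : ∀ s : Finset ℕ, (↑m.factorial : ℂ)⁻¹ *
      iteratedDeriv m (fun q : ℂ => ∏ i ∈ s, (1 - q ^ (i + 1))) 0 =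
        (((eulerPoly s).coeff m : ℤ) : ℂ) := by
    intro s
    have h := tay_polynomial ((eulerPoly s).map (Int.castRingHom ℂ))
    have h' := congrArg (PowerSeries.coeff m) h
    rw [coeff_tay, Polynomial.coeff_coe, Polynomial.coeff_map] at h'
    simp only [eulerPoly_eval] at h'
    simpa using h'
  simp only [h3] at h2
  exact tendsto_nhds_unique h2 (tendsto_coeff_eulerPoly m)

end Fermat.Agent.H17
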