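import Mathlib
import Fermat.Prelude.Def_ModularCurve_X0
import Fermat.Prelude.Def_ModularCurve_JqCoeff
import Fermat.Agent.H17.TaylorLimit
import Fermat.Agent.H17.EulerProduct

/-!
# Bridge between the analytic `E₄`, `Δ`, `j` of Mathlib and the formal series of the Prelude

Helper module of seat `helper17` (project P-IGUSA, statement S28).

Main results (all sorry-free):
* `qExpansion_E₄_eq` : `qExpansion 1 E₄ = map (Int.castRingHom ℂ) eisenstein4`
* `qExpansion_discriminant_eq` : `qExpansion 1 Δ = X * map (Int.castRingHom ℂ) dedekindEtaUnit`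
-/

set_option autoImplicit false

open Filter Topology Metric UpperHalfPlane ModularForm EisensteinSeries
open scoped PowerSeries.WithPiTopology MatrixGroups

namespace Fermat.Agent.H17

local notation "𝕢" => Function.Periodic.qParam

theorem qExpansion_eq_tay (h : ℝ) (f : ℍ → ℂ) : qExpansion h f = tay (cuspFunction h f) := rfl

/-- The `q`-expansion of `E₄` is the Prelude's formal series `eisenstein4`. -/
theorem qExpansion_E₄_eq :
    qExpansion 1 E₄ = PowerSeries.map (Int.castRingHom ℂ) ModularCurve.eisenstein4 := by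
  ext m
  rw [PowerSeries.coeff_map, ModularCurve.eisenstein4, PowerSeries.coeff_mk,
    E_qExpansion_coeff _ ⟨2, rfl⟩]
  have hb : bernoulli 4 = -1 / 30 := by decide +kernel
  split_ifs
  · simp
  · rw [hb, ArithmeticFunction.sigma_apply]
    push_cast
    norm_num

/-- The Euler product as a function on `ℂ`. -/
noncomputable def eulerFun (q : ℂ) : ℂ := ∏' n : ℕ, (1 - q ^ (n + 1))

theorem differentiableOn_eulerFun : DifferentiableOn ℂ eulerFun (ball (0 : ℂ) 1) :=
  ModularForm.differentiableOn_tprod_one_sub_pow

theorem analyticAt_eulerFun : AnalyticAt ℂ eulerFun 0 :=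
  differentiableOn_eulerFun.analyticAt (isOpen_ball.mem_nhds (mem_ball_self one_pos))

theorem tay_eulerFun :
    tay eulerFun = PowerSeries.map (Int.castRingHom ℂ) ModularCurve.etaProd :=
  tay_tprod_one_sub_pow

theorem eulerFun_ne_zero {q : ℂ} (hq : ‖q‖ < 1) : eulerFun q ≠ 0 := by
  unfold eulerFun
  simp_rw [sub_eq_add_neg]
  refine tprod_one_add_ne_zero_of_summable (f := fun n ↦ -q ^ (n + 1)) ?_ ?_
  · intro i h
    have h1 : q ^ (i + 1) = 1 := by
      have := h
      rw [← sub_eq_add_neg, sub_eq_zero] at this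
      exact this.symm
    have h2 : ‖q‖ ^ (i + 1) = 1 := by rw [← norm_pow, h1, norm_one]
    have h3 : ‖q‖ ^ (i + 1) < 1 := pow_lt_one₀ (norm_nonneg _) hq (by omega)
    linarith
  · simpa using (summable_nat_add_iff 1).mpr (summable_geometric_of_lt_one (norm_nonneg _) hq)

/-- The `q`-expansion of `Δ` is `X * etaProd ^ 24`. -/
theorem qExpansion_discriminant_eq :
    qExpansion 1 ModularForm.discriminant =
      PowerSeries.X * PowerSeries.map (Int.castRingHom ℂ) ModularCurve.dedekindEtaUnit := by
  rw [qExpansion_eq_tay]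
  have h1 : cuspFunction 1 ModularForm.discriminant =ᶠ[𝓝 0] (fun q : ℂ => q) * eulerFun ^ 24 := by
    filter_upwards [isOpen_ball.mem_nhds (mem_ball_self (x := (0 : ℂ)) one_pos)] with q hq
    rw [ModularForm.discriminant_cuspFunction_eqOn hq]
    simp only [Pi.mul_apply, Pi.pow_apply, eulerFun]
    rw [(ModularForm.multipliable_one_sub_pow (by simpa using hq)).tprod_pow]
  rw [tay_congr h1, tay_mul (by fun_prop) (analyticAt_eulerFun.pow 24), tay_id,
    tay_pow analyticAt_eulerFun, tay_eulerFun, ModularCurve.dedekindEtaUnit, map_pow]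

end Fermat.Agent.H17
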