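import Mathlib
import Fermat.Prelude.Def_ModularForm_HeckeOperator
import Fermat.Agent.H27.Igusa.Defs
import Fermat.Agent.H17.TaylorLimit

/-!
# Shared definitions for IG-M (analytic input of the Igusa project, S28)

Seat `helper17`.  Everything here is a definition or a small generic algebra lemma.

* `symPhi r = ∏ x, (X - C (r x))`, `symL r u = ∑ x, C (u x) * ∏ y ≠ x, (X - C (r y))` over any
  commutative ring, with naturality, invariance under reindexing, and the interpolation property.
* analytic families `rAn p x`, `uAn p x` on the upper half plane (`x : OnePoint (ZMod p)`),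
* formal families `rFo p ζ x`, `uFo p ζ x` in `LaurentSeries ℂ`,
* `IsLaurentOf G f` (a function on the punctured unit disc with Laurent expansion `f`) and
  `IsEval p F f` (`F τ = G (exp (2 π i τ / p))`).
-/

set_option autoImplicit false

noncomputable section

open UpperHalfPlane ModularForm Polynomial
open scoped MatrixGroups

namespace Fermat.Agent.H17

local notation "𝕢" => Function.Periodic.qParam

/-! ### generic symmetric constructions -/

section Sym

variable {R S : Type*} [CommRing R] [CommRing S] {ι : Type*} [Fintype ι]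

/-- `∏ x, (X - r x)` -/
def symPhi (r : ι → R) : Polynomial R := ∏ x, (X - C (r x))

open Classical in
/-- `∑ x, u x * ∏ y ≠ x, (X - r y)` (classical decidable equality on the index type) -/
def symL (r u : ι → R) : Polynomial R :=
  ∑ x, C (u x) * ∏ y ∈ Finset.univ.erase x, (X - C (r y))

theorem symPhi_map (φ : R →+* S) (r : ι → R) : (symPhi r).map φ = symPhi (fun x => φ (r x)) := by
  simp [symPhi, Polynomial.map_prod]

open Classical in
theorem symL_map (φ : R →+* S) (r u : ι → R) :
    (symL r u).map φ = symL (fun x => φ (r x)) (fun x => φ (u x)) := by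
  simp [symL, Polynomial.map_sum, Polynomial.map_prod]

theorem symPhi_comp_equiv (σ : ι ≃ ι) (r : ι → R) : symPhi (fun x => r (σ x)) = symPhi r := by
  unfold symPhi
  exact Equiv.prod_comp σ (fun x => X - C (r x))

open Classical in
theorem symL_comp_equiv (σ : ι ≃ ι) (r u : ι → R) :
    symL (fun x => r (σ x)) (fun x => u (σ x)) = symL r u := by
  unfold symL
  rw [← Equiv.sum_comp σ (fun x => C (u x) * ∏ y ∈ Finset.univ.erase x, (X - C (r y)))]
  refine Finset.sum_congr rfl fun x _ => ?_
  congr 1
  refine Finset.prod_bij (fun y _ => σ y) ?_ ?_ ?_ ?_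
  · intro y hy
    simp only [Finset.mem_erase, Finset.mem_univ, and_true, ne_eq] at hy ⊢
    exact fun h => hy (σ.injective h)
  · intro a _ b _ h
    exact σ.injective h
  · intro y hy
    simp only [Finset.mem_erase, Finset.mem_univ, and_true, ne_eq] at hy
    refine ⟨σ.symm y, ?_, by simp⟩
    simp only [Finset.mem_erase, Finset.mem_univ, and_true, ne_eq]
    intro h
    exact hy (by rw [← h]; simp)
  · intro y _
    rfl

theorem symPhi_monic (r : ι → R) : (symPhi r).Monic :=
  Polynomial.monic_prod_of_monic _ _ fun x _ => Polynomial.monic_X_sub_C (r x)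

theorem symPhi_natDegree [Nontrivial R] (r : ι → R) : (symPhi r).natDegree = Fintype.card ι := by
  unfold symPhi
  rw [Polynomial.natDegree_prod_of_monic _ _ fun x _ => Polynomial.monic_X_sub_C (r x)]
  simp

theorem symPhi_eval_self (r : ι → R) (x₀ : ι) : (symPhi r).eval (r x₀) = 0 := by
  unfold symPhi
  rw [Polynomial.eval_prod]
  exact Finset.prod_eq_zero (Finset.mem_univ x₀) (by simp)

open Classical in
theorem symPhi_derivative (r : ι → R) :
    derivative (symPhi r) = ∑ x, ∏ y ∈ Finset.univ.erase x, (X - C (r y)) := by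
  unfold symPhi
  rw [Polynomial.derivative_prod_finset]
  refine Finset.sum_congr rfl fun x _ => ?_
  simp

open Classical in
theorem sum_erase_eval_self (r : ι → R) (w : ι → R) (x₀ : ι) :
    (∑ x, C (w x) * ∏ y ∈ Finset.univ.erase x, (X - C (r y))).eval (r x₀) =
      w x₀ * ∏ y ∈ Finset.univ.erase x₀, (r x₀ - r y) := by
  rw [Polynomial.eval_finsetSum, Finset.sum_eq_single x₀]
  · simp [Polynomial.eval_prod]
  · intro x _ hx
    rw [Polynomial.eval_mul, Polynomial.eval_prod,
      Finset.prod_eq_zero (Finset.mem_erase.mpr ⟨Ne.symm hx, Finset.mem_univ x₀⟩) (by simp),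
      mul_zero]
  · intro h
    exact absurd (Finset.mem_univ x₀) h

open Classical in
/-- interpolation property of `symL` -/
theorem symL_eval_self (r u : ι → R) (x₀ : ι) :
    (symL r u).eval (r x₀) = u x₀ * (derivative (symPhi r)).eval (r x₀) := by
  have h1 := sum_erase_eval_self r u x₀
  have h2 := sum_erase_eval_self r (fun _ => (1 : R)) x₀
  simp only [map_one, one_mul] at h2
  rw [symPhi_derivative, h2]
  exact h1

end Sym

/-! ### the analytic families -/

/-- the analytic `j`-function `E₄³ / Δ` on the upper half plane -/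
def jFun (τ : ℍ) : ℂ := E₄ τ ^ 3 / ModularForm.discriminant τ

/-- representatives of the `p + 1` classes: `[[p,0],[0,1]]` at `∞`, `[[1,b],[0,p]]` at `b` -/
def hRep (p : ℕ) (x : OnePoint (ZMod p)) : GL (Fin 2) ℝ :=
  x.elim (heckeDiagMatrix p) (fun b => heckeMatrix p b.val)

/-- `j(p τ)` at `∞`, `j((τ + b) / p)` at `b` -/
def rAn (p : ℕ) (x : OnePoint (ZMod p)) (τ : ℍ) : ℂ := jFun (hRep p x • τ)

/-- `p^12 Δ(p τ) / Δ(τ)` at `∞`, `Δ((τ + b) / p) / Δ(τ)` at `b` -/
def uAn (p : ℕ) (x : OnePoint (ZMod p)) (τ : ℍ) : ℂ :=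
  p * (ModularForm.discriminant ∣[(12 : ℤ)] hRep p x) τ / ModularForm.discriminant τ

/-! ### the formal families -/

/-- the standard primitive `p`-th root of unity `exp (2 π i / p)` as a unit of `ℂ` -/
def zetaC (p : ℕ) : ℂˣ :=
  Units.mk0 (Complex.exp (2 * Real.pi * Complex.I / p)) (Complex.exp_ne_zero _)

/-- `j(t^{p²})` at `∞`, `j(ζ^b t)` at `b` (over any commutative ring `k`) -/
def rFo {k : Type*} [CommRing k] (p : ℕ) [NeZero p] (ζ : kˣ) (x : OnePoint (ZMod p)) :
    LaurentSeries k :=
  x.elim (Fermat.Agent.H27.rootInf k p) (fun b => Fermat.Agent.H27.rootFin (ζ ^ b.val))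

/-- `p^12 Δ(t^{p²}) / Δ(t^p)` at `∞`, `Δ(ζ^b t) / Δ(t^p)` at `b` (over any commutative ring) -/
def uFo {k : Type*} [CommRing k] (p : ℕ) [NeZero p] (ζ : kˣ) (x : OnePoint (ZMod p)) :
    LaurentSeries k :=
  x.elim (Fermat.Agent.H27.unitInf k p) (fun b => Fermat.Agent.H27.unitFin p (ζ ^ b.val))

/-! ### evaluation of formal series -/

/-- `G`, a function on the punctured open unit disc, has the Laurent expansion `f` at `0`:
`q^m G(q)` extends to a holomorphic function `H` on the disc whose Taylor series is `t^m f`. -/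
def IsLaurentOf (G : ℂ → ℂ) (f : LaurentSeries ℂ) : Prop :=
  ∃ (m : ℕ) (H : ℂ → ℂ), DifferentiableOn ℂ H (Metric.ball 0 1) ∧
    (∀ q : ℂ, ‖q‖ < 1 → q ≠ 0 → G q * q ^ m = H q) ∧
    HahnSeries.single (m : ℤ) (1 : ℂ) * f = HahnSeries.ofPowerSeries ℤ ℂ (tay H)

/-- `F` on `ℍ` is the evaluation of the formal Laurent series `f(t)` at `t = exp (2 π i τ / p)`. -/
def IsEval (p : ℕ) (F : ℍ → ℂ) (f : LaurentSeries ℂ) : Prop :=
  ∃ G : ℂ → ℂ, IsLaurentOf G f ∧ ∀ τ : ℍ, F τ = G (𝕢 (p : ℝ) τ)

/-- all Laurent coefficients are integers -/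
def IntCoeffs (f : LaurentSeries ℂ) : Prop := ∀ n : ℤ, ∃ m : ℤ, f.coeff n = (m : ℂ)

end Fermat.Agent.H17
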