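import Mathlib
import Fermat.Agent.H17.TaylorLimit

/-!
# More on the Taylor series `tay` at `0`

Seat `helper17` (project P-IGUSA, IG-M).
-/

set_option autoImplicit false

open Filter Topology Metric

namespace Fermat.Agent.H17

theorem tay_const (a : ℂ) : tay (fun _ : ℂ => a) = PowerSeries.C a := by
  ext m
  rw [coeff_tay, PowerSeries.coeff_C]
  rcases m with _ | m
  · simp
  · rw [iteratedDeriv_succ']
    have : deriv (fun _ : ℂ => a) = fun _ => 0 := by funext x; simp
    rw [this]; simp

theorem tay_zero : tay (0 : ℂ → ℂ) = 0 := by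
  have := tay_const 0
  rw [map_zero] at this
  exact this

theorem tay_add {G H : ℂ → ℂ} (hG : AnalyticAt ℂ G 0) (hH : AnalyticAt ℂ H 0) :
    tay (G + H) = tay G + tay H := by
  ext m
  rw [map_add, coeff_tay, coeff_tay, coeff_tay,
    iteratedDeriv_add hG.contDiffAt hH.contDiffAt, mul_add]

theorem tay_neg (G : ℂ → ℂ) : tay (-G) = -tay G := by
  ext m
  rw [map_neg, coeff_tay, coeff_tay]
  rw [iteratedDeriv_neg m G 0, mul_neg]

/-- Taylor's theorem on the unit disc, in terms of `tay`. -/
theorem hasSum_tay {H : ℂ → ℂ} (hH : DifferentiableOn ℂ H (ball 0 1)) {q : ℂ} (hq : ‖q‖ < 1) :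
    HasSum (fun n : ℕ => (tay H).coeff n * q ^ n) (H q) := by
  have := Complex.hasSum_taylorSeries_on_ball hH (z := q) (by simpa using hq)
  have h2 : (fun n : ℕ => (tay H).coeff n * q ^ n) =
      (fun n : ℕ ↦ ((n.factorial : ℂ))⁻¹ • (q - 0) ^ n • iteratedDeriv n H 0) := by
    funext n
    rw [coeff_tay, sub_zero, smul_eq_mul, smul_eq_mul]
    ring
  rw [h2]
  exact this

/-- Uniqueness of power series expansions, in terms of `tay`. -/
theorem tay_unique {H : ℂ → ℂ} (hH : AnalyticAt ℂ H 0) {c : ℕ → ℂ}
    (hc : ∀ q : ℂ, ‖q‖ < 1 → HasSum (fun n : ℕ => c n * q ^ n) (H q)) :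
    tay H = PowerSeries.mk c := by
  have h1 : HasFPowerSeriesOnBall H (.ofScalars ℂ c) 0 1 := by
    constructor
    · refine le_of_forall_lt_imp_le_of_dense fun r hr ↦ ?_
      lift r to NNReal using hr.ne_top
      apply FormalMultilinearSeries.le_radius_of_summable
      have := (hc (r : ℂ) (by simpa using hr)).summable.norm
      simpa [smul_eq_mul, norm_mul, mul_comm, mul_left_comm, mul_assoc] using this
    · simp
    · intro y hy
      rw [← ENNReal.coe_one, Metric.eball_coe, NNReal.coe_one, mem_ball_zero_iff] at hy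
      simpa [mul_comm] using hc y hy
  have h2 : HasFPowerSeriesAt H
      (.ofScalars ℂ (fun n => iteratedDeriv n H 0 / (n.factorial : ℂ))) 0 := by
    simpa using hH.hasFPowerSeriesAt
  have := h1.hasFPowerSeriesAt.eq_formalMultilinearSeries h2
  ext m
  have hm := congr_arg (FormalMultilinearSeries.coeff · m) this
  simp only [FormalMultilinearSeries.coeff_ofScalars] at hm
  rw [coeff_tay, PowerSeries.coeff_mk, hm]
  ring

end Fermat.Agent.H17
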