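import Mathlib
import Fermat.Agent.H17.MDefs
import Fermat.Agent.H17.TayExtra
import Fermat.Agent.H27.Igusa.Track

/-!
# Calculus of `IsLaurentOf` and `IsEval`

Seat `helper17` (project P-IGUSA, IG-M, part T2 (a)).
-/

set_option autoImplicit false

noncomputable section

open Filter Topology Metric HahnSeries ModularCurve Fermat.Agent.H27

namespace Fermat.Agent.H17

/-! ### coefficient helpers -/

theorem coeff_single_one_mul (m : ℤ) (f : LaurentSeries ℂ) (n : ℤ) :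
    (HahnSeries.single m (1 : ℂ) * f).coeff n = f.coeff (n - m) := by
  have := HahnSeries.coeff_single_mul_add (r := (1 : ℂ)) (x := f) (a := n - m) (b := m)
  rw [sub_add_cancel, one_mul] at this
  exact this

theorem single_neg_mul_single (m : ℤ) :
    HahnSeries.single (-m) (1 : ℂ) * HahnSeries.single m (1 : ℂ) = 1 := by
  rw [HahnSeries.single_mul_single]
  simp

theorem single_add_one (a b : ℤ) :
    HahnSeries.single (a + b) (1 : ℂ) = HahnSeries.single a 1 * HahnSeries.single b 1 := by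
  rw [HahnSeries.single_mul_single, mul_one]

theorem eq_of_single_mul_eq {m : ℤ} {f g : LaurentSeries ℂ}
    (h : HahnSeries.single m (1 : ℂ) * f = HahnSeries.single m (1 : ℂ) * g) : f = g := by
  have := congrArg (fun x => HahnSeries.single (-m) (1 : ℂ) * x) h
  simp only [← mul_assoc, single_neg_mul_single, one_mul] at this
  exact this

theorem ofPowerSeries_coeff_natCast (g : PowerSeries ℂ) (n : ℕ) :
    (HahnSeries.ofPowerSeries ℤ ℂ g).coeff (n : ℤ) = g.coeff n :=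
  HahnSeries.ofPowerSeries_apply_coeff g n

theorem ofPowerSeries_coeff_neg (g : PowerSeries ℂ) {n : ℤ} (hn : n < 0) :
    (HahnSeries.ofPowerSeries ℤ ℂ g).coeff n = 0 := by
  rw [HahnSeries.ofPowerSeries_apply]
  refine HahnSeries.embDomain_of_notMem_range ?_
  rintro ⟨k, hk⟩
  simp at hk
  omega

/-! ### `IsLaurentOf` -/

theorem IsLaurentOf.congr {G G' : ℂ → ℂ} {f : LaurentSeries ℂ} (h : IsLaurentOf G f)
    (heq : ∀ q : ℂ, ‖q‖ < 1 → q ≠ 0 → G' q = G q) : IsLaurentOf G' f := by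
  obtain ⟨m, H, hH, hG, hf⟩ := h
  exact ⟨m, H, hH, fun q hq hq0 => by rw [heq q hq hq0, hG q hq hq0], hf⟩

theorem analyticAt_of_differentiableOn_ball {H : ℂ → ℂ}
    (hH : DifferentiableOn ℂ H (ball 0 1)) : AnalyticAt ℂ H 0 :=
  hH.analyticAt (isOpen_ball.mem_nhds (mem_ball_self one_pos))

theorem isLaurentOf_const (c : ℂ) : IsLaurentOf (fun _ => c) (HahnSeries.C c) := by
  refine ⟨0, fun _ => c, differentiableOn_const c, fun q _ _ => by simp, ?_⟩
  rw [tay_const, HahnSeries.ofPowerSeries_C]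
  simp

theorem IsLaurentOf.mul {G₁ G₂ : ℂ → ℂ} {f₁ f₂ : LaurentSeries ℂ} (h₁ : IsLaurentOf G₁ f₁)
    (h₂ : IsLaurentOf G₂ f₂) : IsLaurentOf (fun q => G₁ q * G₂ q) (f₁ * f₂) := by
  obtain ⟨m₁, H₁, hH₁, hG₁, hf₁⟩ := h₁
  obtain ⟨m₂, H₂, hH₂, hG₂, hf₂⟩ := h₂
  refine ⟨m₁ + m₂, H₁ * H₂, hH₁.mul hH₂, fun q hq hq0 => ?_, ?_⟩
  · rw [Pi.mul_apply, ← hG₁ q hq hq0, ← hG₂ q hq hq0]
    ring
  · rw [tay_mul (analyticAt_of_differentiableOn_ball hH₁) (analyticAt_of_differentiableOn_ball hH₂),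
      map_mul, ← hf₁, ← hf₂]
    push_cast
    rw [single_add_one]
    ring

theorem IsLaurentOf.add {G₁ G₂ : ℂ → ℂ} {f₁ f₂ : LaurentSeries ℂ} (h₁ : IsLaurentOf G₁ f₁)
    (h₂ : IsLaurentOf G₂ f₂) : IsLaurentOf (fun q => G₁ q + G₂ q) (f₁ + f₂) := by
  obtain ⟨m₁, H₁, hH₁, hG₁, hf₁⟩ := h₁
  obtain ⟨m₂, H₂, hH₂, hG₂, hf₂⟩ := h₂
  have hid : ∀ n : ℕ, AnalyticAt ℂ ((fun q : ℂ => q) ^ n) 0 := fun n => by fun_prop
  have hdid : ∀ n : ℕ, DifferentiableOn ℂ ((fun q : ℂ => q) ^ n) (ball 0 1) := fun n => by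
    fun_prop
  refine ⟨m₁ + m₂, (fun q : ℂ => q) ^ m₂ * H₁ + (fun q : ℂ => q) ^ m₁ * H₂,
    ((hdid m₂).mul hH₁).add ((hdid m₁).mul hH₂), fun q hq hq0 => ?_, ?_⟩
  · simp only [Pi.add_apply, Pi.mul_apply, Pi.pow_apply]
    rw [← hG₁ q hq hq0, ← hG₂ q hq hq0]
    ring
  · have a1 := analyticAt_of_differentiableOn_ball hH₁
    have a2 := analyticAt_of_differentiableOn_ball hH₂
    rw [tay_add ((hid m₂).mul a1) ((hid m₁).mul a2), tay_mul (hid m₂) a1, tay_mul (hid m₁) a2,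
      tay_pow (by fun_prop), tay_pow (by fun_prop), tay_id, map_add, map_mul, map_mul,
      ← hf₁, ← hf₂, HahnSeries.ofPowerSeries_X_pow, HahnSeries.ofPowerSeries_X_pow]
    push_cast
    rw [single_add_one]
    ring

theorem IsLaurentOf.neg {G : ℂ → ℂ} {f : LaurentSeries ℂ} (h : IsLaurentOf G f) :
    IsLaurentOf (fun q => -G q) (-f) := by
  obtain ⟨m, H, hH, hG, hf⟩ := h
  refine ⟨m, -H, hH.neg, fun q hq hq0 => ?_, ?_⟩
  · rw [Pi.neg_apply, ← hG q hq hq0]; ring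
  · rw [tay_neg, map_neg, ← hf]; ring

theorem IsLaurentOf.sub {G₁ G₂ : ℂ → ℂ} {f₁ f₂ : LaurentSeries ℂ} (h₁ : IsLaurentOf G₁ f₁)
    (h₂ : IsLaurentOf G₂ f₂) : IsLaurentOf (fun q => G₁ q - G₂ q) (f₁ - f₂) := by
  have := h₁.add h₂.neg
  simpa [sub_eq_add_neg] using this

/-- the polar part is finite -/
theorem IsLaurentOf.coeff_eq_zero {G : ℂ → ℂ} {f : LaurentSeries ℂ} (h : IsLaurentOf G f) :
    ∃ m : ℕ, ∀ n : ℤ, n < -(m : ℤ) → f.coeff n = 0 := by
  obtain ⟨m, H, hH, hG, hf⟩ := h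
  refine ⟨m, fun n hn => ?_⟩
  have := congrArg (fun x => x.coeff (n + m)) hf
  simp only [coeff_single_one_mul, add_sub_cancel_right] at this
  rw [this]
  exact ofPowerSeries_coeff_neg _ (by omega)

theorem IsLaurentOf.eq_zero {G : ℂ → ℂ} {f : LaurentSeries ℂ} (h : IsLaurentOf G f)
    (h0 : ∀ q : ℂ, ‖q‖ < 1 → q ≠ 0 → G q = 0) : f = 0 := by
  obtain ⟨m, H, hH, hG, hf⟩ := h
  have hHa := analyticAt_of_differentiableOn_ball hH
  have h1 : H =ᶠ[𝓝[≠] 0] (fun _ => (0 : ℂ)) := by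
    have : ∀ᶠ q in 𝓝[≠] (0 : ℂ), q ∈ ball (0 : ℂ) 1 :=
      nhdsWithin_le_nhds (isOpen_ball.mem_nhds (mem_ball_self one_pos))
    filter_upwards [this, self_mem_nhdsWithin] with q hq hq0
    rw [← hG q (by simpa using hq) hq0, h0 q (by simpa using hq) hq0, zero_mul]
  have h2 : H =ᶠ[𝓝 0] (fun _ => (0 : ℂ)) :=
    (hHa.continuousAt.eventuallyEq_nhds_iff_eventuallyEq_nhdsNE continuousAt_const).mp h1
  have h3 : tay H = 0 := by
    rw [tay_congr h2]
    exact tay_zero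
  rw [h3, map_zero] at hf
  have : HahnSeries.single (m : ℤ) (1 : ℂ) * f = HahnSeries.single (m : ℤ) (1 : ℂ) * 0 := by
    rw [hf, mul_zero]
  exact eq_of_single_mul_eq this

theorem IsLaurentOf.unique {G₁ G₂ : ℂ → ℂ} {f₁ f₂ : LaurentSeries ℂ} (h₁ : IsLaurentOf G₁ f₁)
    (h₂ : IsLaurentOf G₂ f₂) (heq : ∀ q : ℂ, ‖q‖ < 1 → q ≠ 0 → G₁ q = G₂ q) : f₁ = f₂ := by
  have := (h₁.sub h₂).eq_zero (fun q hq hq0 => by rw [heq q hq hq0, sub_self])
  exact sub_eq_zero.mp this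

/-! ### substitutions -/

theorem IsLaurentOf.twist {G : ℂ → ℂ} {f : LaurentSeries ℂ} (h : IsLaurentOf G f) (ζ : ℂˣ)
    (hζ : ‖(ζ : ℂ)‖ = 1) : IsLaurentOf (fun q => G (ζ * q)) (Fermat.Agent.H27.twist ζ f) := by
  obtain ⟨m, H, hH, hG, hf⟩ := h
  have hball : ∀ q : ℂ, ‖q‖ < 1 → ‖(ζ : ℂ) * q‖ < 1 := fun q hq => by
    rw [norm_mul, hζ, one_mul]; exact hq
  have hζ0 : (ζ : ℂ) ≠ 0 := ζ.ne_zero
  refine ⟨m, fun q => ((ζ : ℂ) ^ m)⁻¹ * H (ζ * q), ?_, fun q hq hq0 => ?_, ?_⟩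
  · refine DifferentiableOn.const_mul ?_ _
    refine hH.comp (by fun_prop) ?_
    intro q hq
    simpa using hball q (by simpa using hq)
  · have := hG (ζ * q) (hball q hq) (mul_ne_zero hζ0 hq0)
    beta_reduce
    rw [← this, mul_pow]
    field_simp
  · have ht : tay (fun q => ((ζ : ℂ) ^ m)⁻¹ * H (ζ * q)) =
        PowerSeries.mk (fun n => ((ζ : ℂ) ^ m)⁻¹ * ((ζ : ℂ) ^ n * (tay H).coeff n)) := by
      refine tay_unique ?_ (fun q hq => ?_)
      · refine analyticAt_of_differentiableOn_ball ?_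
        refine DifferentiableOn.const_mul ?_ _
        refine hH.comp (by fun_prop) ?_
        intro q hq
        simpa using hball q (by simpa using hq)
      · have := (hasSum_tay hH (hball q hq)).mul_left (((ζ : ℂ) ^ m)⁻¹)
        have h2 : (fun n : ℕ => ((ζ : ℂ) ^ m)⁻¹ * ((ζ : ℂ) ^ n * (tay H).coeff n) * q ^ n) =
            (fun i : ℕ => ((ζ : ℂ) ^ m)⁻¹ * ((tay H).coeff i * ((ζ : ℂ) * q) ^ i)) := by
          funext n
          rw [mul_pow]; ring
        rw [h2]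
        exact this
    rw [ht]
    ext n
    rw [coeff_single_one_mul, twist_coeff]
    have hfn : f.coeff (n - m) = (HahnSeries.ofPowerSeries ℤ ℂ (tay H)).coeff n := by
      rw [← hf, coeff_single_one_mul]
    rw [hfn]
    rcases lt_or_ge n 0 with hn | hn
    · rw [ofPowerSeries_coeff_neg _ hn, ofPowerSeries_coeff_neg _ hn, mul_zero]
    · lift n to ℕ using hn
      rw [ofPowerSeries_coeff_natCast, ofPowerSeries_coeff_natCast, PowerSeries.coeff_mk]
      have : ((ζ ^ ((n : ℤ) - (m : ℤ)) : ℂˣ) : ℂ) = ((ζ : ℂ) ^ m)⁻¹ * (ζ : ℂ) ^ n := by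
        rw [Units.val_zpow_eq_zpow_val, zpow_sub₀ hζ0, zpow_natCast, zpow_natCast]
        field_simp
      rw [this]
      ring

theorem IsLaurentOf.qExpand {G : ℂ → ℂ} {f : LaurentSeries ℂ} (h : IsLaurentOf G f) (e : ℕ)
    [NeZero e] : IsLaurentOf (fun q => G (q ^ e)) (ModularCurve.qExpand ℂ e f) := by
  obtain ⟨m, H, hH, hG, hf⟩ := h
  have he : e ≠ 0 := NeZero.ne e
  have hball : ∀ q : ℂ, ‖q‖ < 1 → ‖q ^ e‖ < 1 := fun q hq => by
    rw [norm_pow]; exact pow_lt_one₀ (norm_nonneg _) hq he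
  have hd : DifferentiableOn ℂ (fun q => H (q ^ e)) (ball 0 1) := by
    refine hH.comp (by fun_prop) ?_
    intro q hq
    simpa using hball q (by simpa using hq)
  refine ⟨e * m, fun q => H (q ^ e), hd, fun q hq hq0 => ?_, ?_⟩
  · beta_reduce
    rw [← hG (q ^ e) (hball q hq) (pow_ne_zero _ hq0), pow_mul]
  · have ht : tay (fun q => H (q ^ e)) =
        PowerSeries.mk (fun k => if e ∣ k then (tay H).coeff (k / e) else 0) := by
      refine tay_unique (analyticAt_of_differentiableOn_ball hd) (fun q hq => ?_)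
      have h1 := hasSum_tay hH (hball q hq)
      have hinj : Function.Injective (fun n : ℕ => e * n) := fun a b hab =>
        Nat.eq_of_mul_eq_mul_left (Nat.pos_of_ne_zero he) hab
      refine (Function.Injective.hasSum_iff hinj ?_).mp ?_
      · intro k hk
        have : ¬ e ∣ k := fun ⟨n, hn⟩ => hk ⟨n, hn.symm⟩
        simp [this]
      · convert h1 using 2 with n
        simp only [Function.comp_apply, dvd_mul_right, if_true,
          Nat.mul_div_cancel_left _ (Nat.pos_of_ne_zero he), pow_mul]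
    rw [ht]
    have h2 : HahnSeries.single ((e * m : ℕ) : ℤ) (1 : ℂ) * ModularCurve.qExpand ℂ e f =
        ModularCurve.qExpand ℂ e (HahnSeries.single (m : ℤ) (1 : ℂ) * f) := by
      rw [map_mul, ModularCurve.qExpand_single]
      push_cast
      rfl
    rw [h2, hf]
    ext n
    rw [Fermat.Agent.H27.qExpand_coeff_ite]
    rcases lt_or_ge n 0 with hn | hn
    · rw [ofPowerSeries_coeff_neg _ hn]
      split_ifs with hdvd
      · refine ofPowerSeries_coeff_neg _ ?_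
        exact Int.ediv_neg_of_neg_of_pos hn (by exact_mod_cast Nat.pos_of_ne_zero he)
      · rfl
    · lift n to ℕ using hn
      rw [ofPowerSeries_coeff_natCast, PowerSeries.coeff_mk]
      by_cases hdvd : e ∣ n
      · rw [if_pos hdvd, if_pos (by exact_mod_cast hdvd)]
        have : ((n : ℤ) / (e : ℤ)) = ((n / e : ℕ) : ℤ) := by norm_cast
        rw [this, ofPowerSeries_coeff_natCast]
      · rw [if_neg hdvd, if_neg (by exact_mod_cast hdvd)]

/-! ### `IsEval` -/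

open UpperHalfPlane

local notation "𝕢" => Function.Periodic.qParam

theorem norm_qParam_lt_one' (p : ℕ) [NeZero p] (τ : ℍ) : ‖𝕢 (p : ℝ) τ‖ < 1 :=
  Function.Periodic.norm_qParam_lt_one (by exact_mod_cast Nat.pos_of_ne_zero (NeZero.ne p))
    τ.im_pos

theorem exists_qParam_eq (p : ℕ) [NeZero p] {q : ℂ} (hq : ‖q‖ < 1) (hq0 : q ≠ 0) :
    ∃ τ : ℍ, 𝕢 (p : ℝ) τ = q := by
  have hp : (0 : ℝ) < p := by exact_mod_cast Nat.pos_of_ne_zero (NeZero.ne p)
  exact ⟨⟨Function.Periodic.invQParam p q,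
    Function.Periodic.im_invQParam_pos_of_norm_lt_one hp hq hq0⟩,
    Function.Periodic.qParam_right_inv hp.ne' hq0⟩

theorem IsEval.congr {p : ℕ} {F F' : ℍ → ℂ} {f : LaurentSeries ℂ} (h : IsEval p F f)
    (heq : ∀ τ, F' τ = F τ) : IsEval p F' f := by
  obtain ⟨G, hG, hF⟩ := h
  exact ⟨G, hG, fun τ => by rw [heq, hF]⟩

theorem isEval_const (p : ℕ) (c : ℂ) : IsEval p (fun _ => c) (HahnSeries.C c) :=
  ⟨fun _ => c, isLaurentOf_const c, fun _ => rfl⟩

theorem IsEval.mul {p : ℕ} {F₁ F₂ : ℍ → ℂ} {f₁ f₂ : LaurentSeries ℂ} (h₁ : IsEval p F₁ f₁)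
    (h₂ : IsEval p F₂ f₂) : IsEval p (fun τ => F₁ τ * F₂ τ) (f₁ * f₂) := by
  obtain ⟨G₁, hG₁, hF₁⟩ := h₁
  obtain ⟨G₂, hG₂, hF₂⟩ := h₂
  exact ⟨_, hG₁.mul hG₂, fun τ => by beta_reduce; rw [hF₁, hF₂]⟩

theorem IsEval.add {p : ℕ} {F₁ F₂ : ℍ → ℂ} {f₁ f₂ : LaurentSeries ℂ} (h₁ : IsEval p F₁ f₁)
    (h₂ : IsEval p F₂ f₂) : IsEval p (fun τ => F₁ τ + F₂ τ) (f₁ + f₂) := by
  obtain ⟨G₁, hG₁, hF₁⟩ := h₁
  obtain ⟨G₂, hG₂, hF₂⟩ := h₂
  exact ⟨_, hG₁.add hG₂, fun τ => by beta_reduce; rw [hF₁, hF₂]⟩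

theorem IsEval.neg {p : ℕ} {F : ℍ → ℂ} {f : LaurentSeries ℂ} (h : IsEval p F f) :
    IsEval p (fun τ => -F τ) (-f) := by
  obtain ⟨G, hG, hF⟩ := h
  exact ⟨_, hG.neg, fun τ => by beta_reduce; rw [hF]⟩

theorem IsEval.sub {p : ℕ} {F₁ F₂ : ℍ → ℂ} {f₁ f₂ : LaurentSeries ℂ} (h₁ : IsEval p F₁ f₁)
    (h₂ : IsEval p F₂ f₂) : IsEval p (fun τ => F₁ τ - F₂ τ) (f₁ - f₂) := by
  obtain ⟨G₁, hG₁, hF₁⟩ := h₁
  obtain ⟨G₂, hG₂, hF₂⟩ := h₂
  exact ⟨_, hG₁.sub hG₂, fun τ => by beta_reduce; rw [hF₁, hF₂]⟩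

theorem IsEval.pow {p : ℕ} {F : ℍ → ℂ} {f : LaurentSeries ℂ} (h : IsEval p F f) (n : ℕ) :
    IsEval p (fun τ => F τ ^ n) (f ^ n) := by
  induction n with
  | zero =>
    have := isEval_const p 1
    simpa using this
  | succ n ih =>
    have := ih.mul h
    simpa [pow_succ] using this

theorem IsEval.unique {p : ℕ} [NeZero p] {F : ℍ → ℂ} {f₁ f₂ : LaurentSeries ℂ}
    (h₁ : IsEval p F f₁) (h₂ : IsEval p F f₂) : f₁ = f₂ := by
  obtain ⟨G₁, hG₁, hF₁⟩ := h₁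
  obtain ⟨G₂, hG₂, hF₂⟩ := h₂
  refine hG₁.unique hG₂ (fun q hq hq0 => ?_)
  obtain ⟨τ, rfl⟩ := exists_qParam_eq p hq hq0
  rw [← hF₁, ← hF₂]

theorem IsEval.coeff_eq_zero {p : ℕ} {F : ℍ → ℂ} {f : LaurentSeries ℂ} (h : IsEval p F f) :
    ∃ m : ℕ, ∀ n : ℤ, n < -(m : ℤ) → f.coeff n = 0 := by
  obtain ⟨G, hG, -⟩ := h
  exact hG.coeff_eq_zero

/-- the subring of pairs (function on `ℍ`, formal Laurent series evaluating to it) -/
def evalSubring (p : ℕ) : Subring ((ℍ → ℂ) × LaurentSeries ℂ) where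
  carrier := {x | IsEval p x.1 x.2}
  mul_mem' := fun {a b} ha hb => by
    have := IsEval.mul ha hb
    exact this
  one_mem' := by
    have := isEval_const p 1
    simp only [map_one] at this
    exact this
  add_mem' := fun {a b} ha hb => by
    have := IsEval.add ha hb
    exact this
  zero_mem' := by
    have := isEval_const p 0
    simp only [map_zero] at this
    exact this
  neg_mem' := fun {a} ha => by
    have := IsEval.neg ha
    exact this

theorem mem_evalSubring {p : ℕ} {x : (ℍ → ℂ) × LaurentSeries ℂ} :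
    x ∈ evalSubring p ↔ IsEval p x.1 x.2 := Iff.rfl

/-- first projection of `evalSubring` -/
def evalFst (p : ℕ) : evalSubring p →+* (ℍ → ℂ) :=
  (RingHom.fst _ _).comp (evalSubring p).subtype

/-- second projection of `evalSubring` -/
def evalSnd (p : ℕ) : evalSubring p →+* LaurentSeries ℂ :=
  (RingHom.snd _ _).comp (evalSubring p).subtype

theorem isEval_evalFst_evalSnd {p : ℕ} (x : evalSubring p) :
    IsEval p (evalFst p x) (evalSnd p x) := x.2

/-- transfer for every polynomial built from pairs -/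
theorem isEval_coeff_of_map {p : ℕ} (P : Polynomial (evalSubring p)) (k : ℕ) :
    IsEval p (fun τ => ((P.map (evalFst p)).map (Pi.evalRingHom (fun _ : ℍ => ℂ) τ)).coeff k)
      ((P.map (evalSnd p)).coeff k) := by
  simp only [Polynomial.coeff_map]
  exact isEval_evalFst_evalSnd (P.coeff k)

theorem isEval_symPhi_coeff {p : ℕ} {ι : Type*} [Fintype ι] (r : ι → ℍ → ℂ)
    (rf : ι → LaurentSeries ℂ) (h : ∀ x, IsEval p (r x) (rf x)) (k : ℕ) :
    IsEval p (fun τ => (symPhi (fun x => r x τ)).coeff k) ((symPhi rf).coeff k) := by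
  let rt : ι → evalSubring p := fun x => ⟨(r x, rf x), h x⟩
  have := isEval_coeff_of_map (symPhi rt) k
  simp only [symPhi_map] at this
  exact this

theorem isEval_symL_coeff {p : ℕ} {ι : Type*} [Fintype ι] (r u : ι → ℍ → ℂ)
    (rf uf : ι → LaurentSeries ℂ) (h : ∀ x, IsEval p (r x) (rf x))
    (hu : ∀ x, IsEval p (u x) (uf x)) (k : ℕ) :
    IsEval p (fun τ => (symL (fun x => r x τ) (fun x => u x τ)).coeff k)
      ((symL rf uf).coeff k) := by
  let rt : ι → evalSubring p := fun x => ⟨(r x, rf x), h x⟩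
  let ut : ι → evalSubring p := fun x => ⟨(u x, uf x), hu x⟩
  have := isEval_coeff_of_map (symL rt ut) k
  simp only [symL_map] at this
  exact this

end Fermat.Agent.H17
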