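import Mathlib
import Fermat.Agent.H17.JBridge
import Fermat.Agent.H17.EvalCalc

/-!
# Base facts on the unit disc: the Laurent expansions of `j`, `Δ`, `1/Δ`

Seat `helper17` (project P-IGUSA, IG-M, part T2 (b), base facts).

* `dDisc q = q * ∏ (1 - q^n)^24`, `jDisc q = E₄(q)^3 / dDisc q` as functions of `q`
* `discriminant_eq_dDisc`, `jFun_eq_jDisc` : `Δ τ = dDisc (exp (2πiτ))`, `j τ = jDisc (exp (2πiτ))`
* `isLaurentOf_dDisc`, `isLaurentOf_dDisc_inv`, `isLaurentOf_jDisc` : their Laurent expansions are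
  the formal series `deltaS ℂ`, `deltaInvS ℂ`, `jqModC ℂ`.
-/

set_option autoImplicit false

noncomputable section

open Filter Topology Metric HahnSeries ModularCurve Fermat.Agent.H27 UpperHalfPlane ModularForm
open scoped MatrixGroups

namespace Fermat.Agent.H17

local notation "𝕢" => Function.Periodic.qParam

/-- `Δ` as a function of `q` -/
def dDisc (q : ℂ) : ℂ := q * eulerFun q ^ 24

/-- `j` as a function of `q` -/
def jDisc (q : ℂ) : ℂ := cuspFunction 1 E₄ q ^ 3 / dDisc q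

theorem norm_qParam_one_lt_one (τ : ℍ) : ‖𝕢 (1 : ℝ) τ‖ < 1 :=
  Function.Periodic.norm_qParam_lt_one one_pos τ.im_pos

theorem discriminant_eq_dDisc (τ : ℍ) : ModularForm.discriminant τ = dDisc (𝕢 (1 : ℝ) τ) := by
  have hq : 𝕢 (1 : ℝ) τ ∈ ball (0 : ℂ) 1 := by simpa using norm_qParam_one_lt_one τ
  have h1 := ModularForm.discriminant_cuspFunction_eqOn hq
  have h2 : cuspFunction 1 ModularForm.discriminant (𝕢 (1 : ℝ) τ) = ModularForm.discriminant τ :=
    SlashInvariantFormClass.eq_cuspFunction (f := CuspForm.discriminant) τ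
      one_mem_strictPeriods_SL one_ne_zero
  rw [← h2, h1, dDisc, eulerFun]
  simp only
  rw [(ModularForm.multipliable_one_sub_pow (by simpa using hq)).tprod_pow]

theorem E4_eq_cuspFunction (τ : ℍ) : E₄ τ = cuspFunction 1 E₄ (𝕢 (1 : ℝ) τ) :=
  (SlashInvariantFormClass.eq_cuspFunction (f := E₄) τ one_mem_strictPeriods_SL
    one_ne_zero).symm

theorem jFun_eq_jDisc (τ : ℍ) : jFun τ = jDisc (𝕢 (1 : ℝ) τ) := by
  rw [jFun, jDisc, ← discriminant_eq_dDisc, ← E4_eq_cuspFunction]

theorem differentiableOn_cuspFunction_E4 :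
    DifferentiableOn ℂ (cuspFunction 1 E₄) (ball (0 : ℂ) 1) := fun q hq =>
  (ModularFormClass.differentiableAt_cuspFunction (f := E₄) one_pos one_mem_strictPeriods_SL
    (by simpa using hq)).differentiableWithinAt

theorem isLaurentOf_E4 : IsLaurentOf (cuspFunction 1 E₄)
    (HahnSeries.ofPowerSeries ℤ ℂ (PowerSeries.map (Int.castRingHom ℂ) eisenstein4)) := by
  refine ⟨0, cuspFunction 1 E₄, differentiableOn_cuspFunction_E4, fun q _ _ => by simp, ?_⟩
  rw [← qExpansion_eq_tay, qExpansion_E₄_eq]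
  simp

theorem differentiableOn_eulerFun_pow_inv :
    DifferentiableOn ℂ (fun q => (eulerFun q ^ 24)⁻¹) (ball (0 : ℂ) 1) :=
  (differentiableOn_eulerFun.pow 24).inv fun q hq =>
    pow_ne_zero _ (eulerFun_ne_zero (by simpa using hq))

theorem tay_eulerFun_pow_inv :
    tay (fun q => (eulerFun q ^ 24)⁻¹) =
      PowerSeries.map (Int.castRingHom ℂ) dedekindEtaUnitInv := by
  have ha : AnalyticAt ℂ (fun q => (eulerFun q ^ 24)⁻¹) 0 :=
    analyticAt_of_differentiableOn_ball differentiableOn_eulerFun_pow_inv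
  have h1 : (fun q => (eulerFun q ^ 24)⁻¹) * eulerFun ^ 24 =ᶠ[𝓝 0] (1 : ℂ → ℂ) := by
    filter_upwards [isOpen_ball.mem_nhds (mem_ball_self (x := (0 : ℂ)) one_pos)] with q hq
    simp only [Pi.mul_apply, Pi.pow_apply, Pi.one_apply]
    exact inv_mul_cancel₀ (pow_ne_zero _ (eulerFun_ne_zero (by simpa using hq)))
  have h2 := tay_congr h1
  rw [tay_mul ha (analyticAt_eulerFun.pow 24), tay_pow analyticAt_eulerFun, tay_eulerFun,
    tay_one, ← map_pow] at h2
  have h3 : PowerSeries.map (Int.castRingHom ℂ) (etaProd ^ 24) *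
      PowerSeries.map (Int.castRingHom ℂ) dedekindEtaUnitInv = 1 := by
    rw [← map_mul, ← dedekindEtaUnit, dedekindEtaUnit_mul_inv, map_one]
  calc tay (fun q => (eulerFun q ^ 24)⁻¹)
      = tay (fun q => (eulerFun q ^ 24)⁻¹) * (PowerSeries.map (Int.castRingHom ℂ) (etaProd ^ 24) *
          PowerSeries.map (Int.castRingHom ℂ) dedekindEtaUnitInv) := by rw [h3, mul_one]
    _ = PowerSeries.map (Int.castRingHom ℂ) dedekindEtaUnitInv := by
        rw [← mul_assoc, h2, one_mul]

theorem dDisc_ne_zero {q : ℂ} (hq : ‖q‖ < 1) (hq0 : q ≠ 0) : dDisc q ≠ 0 :=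
  mul_ne_zero hq0 (pow_ne_zero _ (eulerFun_ne_zero hq))

theorem isLaurentOf_dDisc : IsLaurentOf dDisc (deltaS ℂ) := by
  have hd : DifferentiableOn ℂ dDisc (ball (0 : ℂ) 1) :=
    (differentiableOn_id).mul (differentiableOn_eulerFun.pow 24)
  refine ⟨0, dDisc, hd, fun q _ _ => by simp, ?_⟩
  have h1 : tay dDisc = PowerSeries.X * PowerSeries.map (Int.castRingHom ℂ) dedekindEtaUnit := by
    have : dDisc = (fun q : ℂ => q) * eulerFun ^ 24 := by
      funext q; simp [dDisc]
    rw [this, tay_mul (by fun_prop) (analyticAt_eulerFun.pow 24), tay_id,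
      tay_pow analyticAt_eulerFun, tay_eulerFun, dedekindEtaUnit, map_pow]
  rw [h1, map_mul, HahnSeries.ofPowerSeries_X, deltaS]
  simp

theorem isLaurentOf_dDisc_inv : IsLaurentOf (fun q => (dDisc q)⁻¹) (deltaInvS ℂ) := by
  refine ⟨1, fun q => (eulerFun q ^ 24)⁻¹, differentiableOn_eulerFun_pow_inv,
    fun q hq hq0 => ?_, ?_⟩
  · have := eulerFun_ne_zero hq
    simp only [dDisc]
    field_simp
  · rw [tay_eulerFun_pow_inv, deltaInvS, ← mul_assoc]
    have : (HahnSeries.single ((1 : ℕ) : ℤ) (1 : ℂ)) * HahnSeries.single (-1 : ℤ) (1 : ℂ) = 1 := by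
      rw [HahnSeries.single_mul_single]
      simp
    rw [this, one_mul]

theorem isLaurentOf_jDisc : IsLaurentOf jDisc (jqModC ℂ) := by
  have h1 := ((isLaurentOf_E4.mul isLaurentOf_E4).mul isLaurentOf_E4).mul isLaurentOf_dDisc_inv
  have h2 : jqModC ℂ =
      HahnSeries.ofPowerSeries ℤ ℂ (PowerSeries.map (Int.castRingHom ℂ) eisenstein4) *
        HahnSeries.ofPowerSeries ℤ ℂ (PowerSeries.map (Int.castRingHom ℂ) eisenstein4) *
        HahnSeries.ofPowerSeries ℤ ℂ (PowerSeries.map (Int.castRingHom ℂ) eisenstein4) *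
        deltaInvS ℂ := by
    rw [jqModC, deltaInvS, jNum]
    simp only [map_mul, map_pow]
    ring
  rw [h2]
  refine h1.congr (fun q _ _ => ?_)
  rw [jDisc]
  ring

end Fermat.Agent.H17
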