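import Mathlib
import Fermat.Prelude.Thm_ModularCurve_coeff_jqModC_pow_self
import Fermat.Prelude.Thm_ModularCurve_coeff_jqModC_pow_of_lt
import Fermat.Agent.H17.EvalCalc
import Fermat.Agent.H73.S22_ConstOfInvariant
import Fermat.Agent.H67.IgusaTransfer

/-!
# Analytic consequences of `IsEval` and the modularity principle

Seat `helper17` (project P-IGUSA, IG-M, part T2 (c)).

* `IsEval.mdifferentiable`, `IsEval.isBoundedAtImInfty`
* `IsEval.coeff_eq_zero_of_not_dvd` : invariance under `τ ↦ τ + 1` forces a series in `t^p`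
* `exists_intPoly_of_isEval` : the modularity principle.
-/

set_option autoImplicit false

noncomputable section

open Filter Topology Metric HahnSeries ModularCurve Fermat.Agent.H27 UpperHalfPlane ModularForm
open scoped MatrixGroups Manifold

namespace Fermat.Agent.H17

local notation "𝕢" => Function.Periodic.qParam

/-! ### invariance of `j` -/

theorem E4_smul (γ : SL(2, ℤ)) (τ : ℍ) : E₄ (γ • τ) = (denom γ τ) ^ (4:ℤ) * E₄ τ := by
  have h := SlashInvariantForm.slash_action_eqn'' (Γ := 𝒮ℒ) E₄ (γ := (γ : GL (Fin 2) ℝ))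
    (by exact ⟨γ, rfl⟩) τ
  exact h

theorem disc_smul (γ : SL(2, ℤ)) (τ : ℍ) :
    ModularForm.discriminant (γ • τ) = (denom γ τ) ^ (12:ℤ) * ModularForm.discriminant τ := by
  have h := SlashInvariantForm.slash_action_eqn'' (Γ := 𝒮ℒ) CuspForm.discriminant
    (γ := (γ : GL (Fin 2) ℝ)) (by exact ⟨γ, rfl⟩) τ
  exact h

theorem jFun_smul (γ : SL(2, ℤ)) (τ : ℍ) : jFun (γ • τ) = jFun τ := by
  unfold jFun
  rw [E4_smul, disc_smul]
  have hd : denom γ τ ≠ 0 := denom_ne_zero _ _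
  have hΔ := ModularForm.discriminant_ne_zero τ
  field_simp

/-! ### holomorphy and boundedness -/

theorem IsEval.mdifferentiable {p : ℕ} [NeZero p] {F : ℍ → ℂ} {f : LaurentSeries ℂ}
    (h : IsEval p F f) : MDiff F := by
  obtain ⟨G, ⟨m, H, hH, hG, -⟩, hF⟩ := h
  have hp : (0 : ℝ) < p := by exact_mod_cast Nat.pos_of_ne_zero (NeZero.ne p)
  rw [UpperHalfPlane.mdifferentiable_iff]
  have hq : ∀ z : ℂ, 0 < z.im → ‖𝕢 (p : ℝ) z‖ < 1 := fun z hz =>
    Function.Periodic.norm_qParam_lt_one hp hz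
  have heq : Set.EqOn (F ∘ ofComplex) (fun z => H (𝕢 (p : ℝ) z) * ((𝕢 (p : ℝ) z) ^ m)⁻¹)
      {z | 0 < z.im} := by
    intro z hz
    have hz' : 0 < z.im := hz
    simp only [Function.comp_apply]
    rw [hF, ofComplex_apply_of_im_pos hz', UpperHalfPlane.coe_mk,
      ← hG _ (hq z hz') (Function.Periodic.qParam_ne_zero z)]
    have := Function.Periodic.qParam_ne_zero (h := (p : ℝ)) z
    field_simp
  refine DifferentiableOn.congr ?_ heq
  refine DifferentiableOn.mul ?_ ?_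
  · refine hH.comp (Function.Periodic.differentiable_qParam.differentiableOn) ?_
    intro z hz
    simpa using hq z hz
  · refine DifferentiableOn.inv ?_ (fun z _ => pow_ne_zero _ (Function.Periodic.qParam_ne_zero z))
    exact (Function.Periodic.differentiable_qParam.pow m).differentiableOn

theorem IsEval.hasSum {p : ℕ} [NeZero p] {F : ℍ → ℂ} {f : LaurentSeries ℂ}
    (h : IsEval p F f) (h0 : ∀ n : ℤ, n < 0 → f.coeff n = 0) (τ : ℍ) :
    HasSum (fun n : ℕ => f.coeff (n : ℤ) * 𝕢 (p : ℝ) τ ^ n) (F τ) := by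
  obtain ⟨G, ⟨m, H, hH, hG, hf⟩, hF⟩ := h
  have htn : ‖𝕢 (p : ℝ) τ‖ < 1 := norm_qParam_lt_one' p τ
  have ht0 : 𝕢 (p : ℝ) τ ≠ 0 := Function.Periodic.qParam_ne_zero _
  have hFτ := hF τ
  generalize 𝕢 (p : ℝ) τ = t at htn ht0 hFτ ⊢
  have ha : ∀ n : ℕ, (tay H).coeff n = f.coeff ((n : ℤ) - m) := by
    intro n
    rw [← ofPowerSeries_coeff_natCast, ← hf, coeff_single_one_mul]
  have h1 := hasSum_tay hH htn
  have h2 : HasSum (fun n : ℕ => (tay H).coeff (n + m) * t ^ (n + m)) (H t) := by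
    have hz : ∑ i ∈ Finset.range m, (tay H).coeff i * t ^ i = 0 := by
      refine Finset.sum_eq_zero fun i hi => ?_
      rw [ha i, h0 _ (by have := Finset.mem_range.mp hi; omega), zero_mul]
    have h1' : HasSum (fun n : ℕ => (tay H).coeff n * t ^ n)
        (H t + ∑ i ∈ Finset.range m, (tay H).coeff i * t ^ i) := by
      rw [hz, add_zero]; exact h1
    exact (hasSum_nat_add_iff m).mpr h1'
  have h3 := h2.mul_right ((t ^ m)⁻¹)
  have h4 : H t * (t ^ m)⁻¹ = F τ := by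
    rw [hFτ, ← hG t htn ht0]
    field_simp
  rw [h4] at h3
  have h5 : (fun n : ℕ => f.coeff (n : ℤ) * t ^ n) =
      (fun i : ℕ => (tay H).coeff (i + m) * t ^ (i + m) * (t ^ m)⁻¹) := by
    funext n
    rw [ha (n + m)]
    push_cast
    rw [add_sub_cancel_right, _root_.pow_add]
    field_simp
  rw [h5]
  exact h3

theorem IsEval.isBoundedAtImInfty {p : ℕ} [NeZero p] {F : ℍ → ℂ} {f : LaurentSeries ℂ}
    (h : IsEval p F f) (h0 : ∀ n : ℤ, n < 0 → f.coeff n = 0) : IsBoundedAtImInfty F := by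
  have hp : (0 : ℝ) < p := by exact_mod_cast Nat.pos_of_ne_zero (NeZero.ne p)
  refine UpperHalfPlane.isBoundedAtImInfty_of_hasSum_qExpansion
    (c := fun n : ℕ => f.coeff (n : ℤ)) hp (fun τ => ?_)
  simpa [smul_eq_mul] using h.hasSum h0 τ

/-! ### invariance under `τ ↦ τ + 1` -/

theorem norm_zetaC (p : ℕ) : ‖(zetaC p : ℂ)‖ = 1 := by
  unfold zetaC
  rw [Units.val_mk0, Complex.norm_exp]
  simp

theorem isPrimitiveRoot_zetaC (p : ℕ) [NeZero p] : IsPrimitiveRoot (zetaC p : ℂ) p :=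
  Complex.isPrimitiveRoot_exp p (NeZero.ne p)

theorem qParam_vadd_one (p : ℕ) [NeZero p] (τ : ℍ) :
    𝕢 (p : ℝ) (((1 : ℝ) +ᵥ τ : ℍ) : ℂ) = (zetaC p : ℂ) * 𝕢 (p : ℝ) τ := by
  unfold zetaC Function.Periodic.qParam
  rw [Units.val_mk0, UpperHalfPlane.coe_vadd, ← Complex.exp_add]
  congr 1
  push_cast
  ring

theorem IsEval.twist_eq_self {p : ℕ} [NeZero p] {F : ℍ → ℂ} {f : LaurentSeries ℂ}
    (h : IsEval p F f) (hT : ∀ τ : ℍ, F ((1 : ℝ) +ᵥ τ) = F τ) :
    Fermat.Agent.H27.twist (zetaC p) f = f := by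
  obtain ⟨G, hG, hF⟩ := h
  have h1 := hG.twist (zetaC p) (norm_zetaC p)
  refine h1.unique hG (fun q hq hq0 => ?_)
  obtain ⟨τ, rfl⟩ := exists_qParam_eq p hq hq0
  rw [← qParam_vadd_one, ← hF, ← hF, hT]

theorem IsEval.coeff_eq_zero_of_not_dvd {p : ℕ} [NeZero p] {F : ℍ → ℂ} {f : LaurentSeries ℂ}
    (h : IsEval p F f) (hT : ∀ τ : ℍ, F ((1 : ℝ) +ᵥ τ) = F τ) {n : ℤ} (hn : ¬ (p : ℤ) ∣ n) :
    f.coeff n = 0 := by
  have h3 := congrArg (fun x => x.coeff n) (h.twist_eq_self hT)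
  simp only [twist_coeff] at h3
  have h4 : ((zetaC p ^ n : ℂˣ) : ℂ) ≠ 1 := by
    rw [Units.val_zpow_eq_zpow_val]
    intro h5
    exact hn (((isPrimitiveRoot_zetaC p).zpow_eq_one_iff_dvd n).mp h5)
  have h5 : (((zetaC p ^ n : ℂˣ) : ℂ) - 1) * f.coeff n = 0 := by
    rw [sub_mul, h3, one_mul, sub_self]
  rcases mul_eq_zero.mp h5 with h6 | h6
  · exact absurd (sub_eq_zero.mp h6) h4
  · exact h6

/-! ### the modularity principle -/

theorem intCoeffs_evalAt_baseS (p : ℕ) [NeZero p] (P : Polynomial ℤ) :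
    IntCoeffs (evalAt (baseS ℂ p) P) := by
  intro n
  have h : evalAt (baseS ℂ p) P =
      coeffMap (Int.castRingHom ℂ) (evalAt (baseS ℤ p) P) := by
    rw [← Fermat.Agent.H67.coeffMap_baseS (Int.castRingHom ℂ) p,
      ← Fermat.Agent.H67.coeffMap_comp_evalAt]
    rfl
  rw [h]
  exact ⟨_, rfl⟩

theorem IntCoeffs.sub {f g : LaurentSeries ℂ} (hf : IntCoeffs f) (hg : IntCoeffs g) :
    IntCoeffs (f - g) := by
  intro n
  obtain ⟨a, ha⟩ := hf n
  obtain ⟨b, hb⟩ := hg n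
  exact ⟨a - b, by rw [HahnSeries.coeff_sub, ha, hb]; push_cast; rfl⟩

theorem coeff_baseS_pow_self (p : ℕ) [NeZero p] (b : ℕ) :
    ((baseS ℂ p) ^ b).coeff (-((p * b : ℕ) : ℤ)) = 1 := by
  have h : (baseS ℂ p) ^ b = qExpand ℂ p ((jqModC ℂ) ^ b) := by
    rw [baseS, map_pow]
  rw [h]
  have h2 : (-((p * b : ℕ) : ℤ)) = (p : ℤ) * (-(b : ℤ)) := by push_cast; ring
  rw [h2, qExpand_coeff_mul, ModularCurve.coeff_jqModC_pow_self]

theorem coeff_baseS_pow_of_lt (p : ℕ) [NeZero p] (b : ℕ) {n : ℤ}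
    (hn : n < -((p * b : ℕ) : ℤ)) : ((baseS ℂ p) ^ b).coeff n = 0 := by
  have h : (baseS ℂ p) ^ b = qExpand ℂ p ((jqModC ℂ) ^ b) := by
    rw [baseS, map_pow]
  rw [h, Fermat.Agent.H27.qExpand_coeff_ite]
  split_ifs with hd
  · refine ModularCurve.coeff_jqModC_pow_of_lt ℂ ?_
    obtain ⟨k, rfl⟩ := hd
    have hp : (0 : ℤ) < p := by exact_mod_cast Nat.pos_of_ne_zero (NeZero.ne p)
    rw [Int.mul_ediv_cancel_left _ hp.ne']
    push_cast at hn
    have : (p : ℤ) * k < (p : ℤ) * (-(b : ℤ)) := by linarith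
    exact lt_of_mul_lt_mul_left this hp.le
  · rfl

theorem exists_intPoly_aux (p : ℕ) [NeZero p] (hbase : IsEval p jFun (baseS ℂ p)) :
    ∀ (N : ℕ) (F : ℍ → ℂ) (f : LaurentSeries ℂ), IsEval p F f →
      (∀ (γ : SL(2, ℤ)) (τ : ℍ), F (γ • τ) = F τ) → IntCoeffs f →
      (∀ n : ℤ, n < -((p * N : ℕ) : ℤ) → f.coeff n = 0) →
      ∃ P : Polynomial ℤ, f = evalAt (baseS ℂ p) P := by
  intro N
  induction N with
  | zero =>
    intro F f h hinv hint hlow
    have h0 : ∀ n : ℤ, n < 0 → f.coeff n = 0 := fun n hn => hlow n (by simpa using hn)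
    obtain ⟨c, hc⟩ := Fermat.Agent.H73.const_of_invariant_of_bounded 1 F h.mdifferentiable
      (fun γ _ τ => hinv γ τ) (fun γ => by
        have : (fun τ : ℍ => F (γ • τ)) = F := funext fun τ => hinv γ τ
        rw [this]
        exact h.isBoundedAtImInfty h0)
    have h1 : IsEval p F (HahnSeries.C c) := (isEval_const p c).congr hc
    have h2 : f = HahnSeries.C c := h.unique h1
    obtain ⟨m, hm⟩ := hint 0
    have h3 : c = (m : ℂ) := by
      rw [← hm, h2]
      simp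
    refine ⟨Polynomial.C m, ?_⟩
    rw [h2, h3]
    simp [evalAt]
  | succ N ih =>
    intro F f h hinv hint hlow
    have hT : ∀ τ : ℍ, F ((1 : ℝ) +ᵥ τ) = F τ := fun τ => by
      rw [← UpperHalfPlane.modular_T_smul]; exact hinv _ τ
    obtain ⟨m, hm⟩ := hint (-((p * (N + 1) : ℕ) : ℤ))
    set g : LaurentSeries ℂ := evalAt (baseS ℂ p) (Polynomial.C m * Polynomial.X ^ (N + 1))
      with hg
    have hg' : g = HahnSeries.C (m : ℂ) * (baseS ℂ p) ^ (N + 1) := by
      rw [hg, map_mul, map_pow]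
      congr 1
      · rw [map_intCast, show (Polynomial.C m : Polynomial ℤ) = (m : Polynomial ℤ) from
          eq_intCast _ m, map_intCast]
      · simp only [evalAt, Polynomial.coe_eval₂RingHom, Polynomial.eval₂_X]
    have hgE : IsEval p (fun τ => (m : ℂ) * jFun τ ^ (N + 1)) g := by
      rw [hg']
      exact (isEval_const p (m : ℂ)).mul (hbase.pow (N + 1))
    have h' : IsEval p (fun τ => F τ - (m : ℂ) * jFun τ ^ (N + 1)) (f - g) := h.sub hgE
    have hinv' : ∀ (γ : SL(2, ℤ)) (τ : ℍ),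
        (fun τ => F τ - (m : ℂ) * jFun τ ^ (N + 1)) (γ • τ) =
          (fun τ => F τ - (m : ℂ) * jFun τ ^ (N + 1)) τ := fun γ τ => by
      beta_reduce
      rw [hinv γ τ, jFun_smul]
    have hT' : ∀ τ : ℍ, (fun τ => F τ - (m : ℂ) * jFun τ ^ (N + 1)) ((1 : ℝ) +ᵥ τ) =
        (fun τ => F τ - (m : ℂ) * jFun τ ^ (N + 1)) τ := fun τ => by
      rw [← UpperHalfPlane.modular_T_smul]; exact hinv' _ τ
    have hint' : IntCoeffs (f - g) := hint.sub (intCoeffs_evalAt_baseS p _)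
    have hlow' : ∀ n : ℤ, n < -((p * N : ℕ) : ℤ) → (f - g).coeff n = 0 := by
      intro n hn
      by_cases hd : (p : ℤ) ∣ n
      · obtain ⟨k, rfl⟩ := hd
        have hp : (0 : ℤ) < p := by exact_mod_cast Nat.pos_of_ne_zero (NeZero.ne p)
        have hk : k < -(N : ℤ) := by
          push_cast at hn
          have : (p : ℤ) * k < (p : ℤ) * (-(N : ℤ)) := by linarith
          exact lt_of_mul_lt_mul_left this hp.le
        rcases (show k < -((N : ℤ) + 1) ∨ k = -((N : ℤ) + 1) by omega) with hk' | hk'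
        · have hn' : (p : ℤ) * k < -((p * (N + 1) : ℕ) : ℤ) := by
            push_cast
            have : (p : ℤ) * k < (p : ℤ) * (-((N : ℤ) + 1)) :=
              mul_lt_mul_of_pos_left hk' hp
            linarith
          rw [HahnSeries.coeff_sub, hlow _ hn', hg', HahnSeries.C_mul_eq_smul,
            HahnSeries.coeff_smul, coeff_baseS_pow_of_lt p (N + 1) hn']
          simp
        · have hn' : (p : ℤ) * k = -((p * (N + 1) : ℕ) : ℤ) := by
            rw [hk']; push_cast; ring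
          rw [hn', HahnSeries.coeff_sub, hm, hg', HahnSeries.C_mul_eq_smul,
            HahnSeries.coeff_smul, coeff_baseS_pow_self p (N + 1)]
          simp
      · exact h'.coeff_eq_zero_of_not_dvd hT' hd
    obtain ⟨P, hP⟩ := ih _ _ h' hinv' hint' hlow'
    refine ⟨P + Polynomial.C m * Polynomial.X ^ (N + 1), ?_⟩
    rw [map_add, ← hP, ← hg]
    ring

/-- **Modularity principle.** A formal Laurent series in `t` with integer coefficients whose
evaluation at `t = exp (2 π i τ / p)` is an `SL(2, ℤ)`-invariant function on `ℍ` is an integer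
polynomial in `j(t^p)`. -/
theorem exists_intPoly_of_isEval' (p : ℕ) [NeZero p] (hbase : IsEval p jFun (baseS ℂ p))
    {F : ℍ → ℂ} {f : LaurentSeries ℂ}
    (h : IsEval p F f) (hinv : ∀ (γ : SL(2, ℤ)) (τ : ℍ), F (γ • τ) = F τ)
    (hint : IntCoeffs f) :
    ∃ P : Polynomial ℤ, f = evalAt (baseS ℂ p) P := by
  obtain ⟨m, hm⟩ := h.coeff_eq_zero
  refine exists_intPoly_aux p hbase m F f h hinv hint (fun n hn => hm n ?_)
  have hp : 1 ≤ p := Nat.pos_of_ne_zero (NeZero.ne p)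
  have : (m : ℤ) ≤ ((p * m : ℕ) : ℤ) := by
    exact_mod_cast Nat.le_mul_of_pos_left m hp
  omega

end Fermat.Agent.H17
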