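import Mathlib
import Fermat.Agent.H17.DiscFacts
import Fermat.Agent.H17.EvalMod

/-!
# The bridge instances: the analytic families are the evaluations of the formal families

Seat `helper17` (project P-IGUSA, IG-M, part T2 (b)).

* `isEval_base : IsEval p jFun (baseS ℂ p)`
* `isEval_rAn x : IsEval p (rAn p x) (rFo p (zetaC p) x)`
* `isEval_uAn x : IsEval p (uAn p x) (uFo p (zetaC p) x)`
-/

set_option autoImplicit false

noncomputable section

open Filter Topology Metric HahnSeries ModularCurve Fermat.Agent.H27 UpperHalfPlane ModularForm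
open scoped MatrixGroups

namespace Fermat.Agent.H17

local notation "𝕢" => Function.Periodic.qParam

theorem qParam_one_eq_pow (p : ℕ) [NeZero p] (z : ℂ) : 𝕢 (1 : ℝ) z = (𝕢 (p : ℝ) z) ^ p := by
  have hp : (p : ℂ) ≠ 0 := by exact_mod_cast NeZero.ne p
  unfold Function.Periodic.qParam
  rw [← Complex.exp_nat_mul]
  congr 1
  push_cast
  field_simp

theorem qParam_one_mul (p : ℕ) [NeZero p] (z : ℂ) :
    𝕢 (1 : ℝ) ((p : ℂ) * z) = ((𝕢 (p : ℝ) z) ^ p) ^ p := by
  have hp : (p : ℂ) ≠ 0 := by exact_mod_cast NeZero.ne p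
  unfold Function.Periodic.qParam
  rw [← Complex.exp_nat_mul, ← Complex.exp_nat_mul]
  congr 1
  push_cast
  field_simp

theorem qParam_one_add_div (p : ℕ) [NeZero p] (z : ℂ) (b : ℕ) :
    𝕢 (1 : ℝ) ((z + b) / p) = ((zetaC p ^ b : ℂˣ) : ℂ) * 𝕢 (p : ℝ) z := by
  have hp : (p : ℂ) ≠ 0 := by exact_mod_cast NeZero.ne p
  unfold Function.Periodic.qParam zetaC
  rw [Units.val_pow_eq_pow_val, Units.val_mk0, ← Complex.exp_nat_mul, ← Complex.exp_add]
  congr 1
  push_cast
  field_simp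
  ring

theorem norm_zetaC_pow (p : ℕ) (b : ℕ) : ‖((zetaC p ^ b : ℂˣ) : ℂ)‖ = 1 := by
  rw [Units.val_pow_eq_pow_val, norm_pow, norm_zetaC, one_pow]

theorem isEval_base (p : ℕ) [NeZero p] : IsEval p jFun (baseS ℂ p) := by
  refine ⟨_, isLaurentOf_jDisc.qExpand p, fun τ => ?_⟩
  rw [jFun_eq_jDisc, qParam_one_eq_pow p]

theorem isEval_rAn (p : ℕ) [NeZero p] (x : OnePoint (ZMod p)) :
    IsEval p (rAn p x) (rFo p (zetaC p) x) := by
  have hp : p ≠ 0 := NeZero.ne p
  induction x using OnePoint.rec with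
  | infty =>
    refine ⟨_, (isLaurentOf_jDisc.qExpand p).qExpand p, fun τ => ?_⟩
    show jFun (heckeDiagMatrix p • τ) = _
    rw [jFun_eq_jDisc, coe_heckeDiagMatrix_smul hp, qParam_one_mul p]
  | coe b =>
    refine ⟨_, isLaurentOf_jDisc.twist (zetaC p ^ b.val) (norm_zetaC_pow p _), fun τ => ?_⟩
    show jFun (heckeMatrix p b.val • τ) = _
    rw [jFun_eq_jDisc, coe_heckeMatrix_smul hp, qParam_one_add_div p]

theorem slash_heckeDiagMatrix (p : ℕ) [NeZero p] (f : ℍ → ℂ) (τ : ℍ) :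
    (p : ℂ) * (f ∣[(12 : ℤ)] heckeDiagMatrix p) τ = (p : ℂ) ^ 12 * f (heckeDiagMatrix p • τ) := by
  have hp : p ≠ 0 := NeZero.ne p
  have hp' : (0 : ℝ) < p := by exact_mod_cast Nat.pos_of_ne_zero hp
  rw [ModularForm.slash_apply, σ_heckeDiagMatrix, denom_heckeDiagMatrix hp, det_heckeDiagMatrix hp,
    abs_of_pos hp']
  simp
  ring

theorem slash_heckeMatrix (p : ℕ) [NeZero p] (b : ℕ) (f : ℍ → ℂ) (τ : ℍ) :
    (p : ℂ) * (f ∣[(12 : ℤ)] heckeMatrix p b) τ = f (heckeMatrix p b • τ) := by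
  have hp : p ≠ 0 := NeZero.ne p
  have hp' : (0 : ℝ) < p := by exact_mod_cast Nat.pos_of_ne_zero hp
  have hpc : (p : ℂ) ≠ 0 := by exact_mod_cast hp
  rw [ModularForm.slash_apply, σ_heckeMatrix, denom_heckeMatrix hp, det_heckeMatrix hp,
    abs_of_pos hp']
  simp
  field_simp

theorem isEval_uAn (p : ℕ) [NeZero p] (x : OnePoint (ZMod p)) :
    IsEval p (uAn p x) (uFo p (zetaC p) x) := by
  have hp : p ≠ 0 := NeZero.ne p
  induction x using OnePoint.rec with
  | infty =>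
    have h1 := ((isLaurentOf_const ((p : ℂ) ^ 12)).mul
      ((isLaurentOf_dDisc.qExpand p).qExpand p)).mul (isLaurentOf_dDisc_inv.qExpand p)
    have h2 : uFo p (zetaC p) (OnePoint.infty : OnePoint (ZMod p)) =
        HahnSeries.C ((p : ℂ) ^ 12) * qExpand ℂ p (qExpand ℂ p (deltaS ℂ)) *
          qExpand ℂ p (deltaInvS ℂ) := by
      show unitInf ℂ p = _
      rw [unitInf, map_pow, map_natCast]
    rw [h2]
    refine ⟨_, h1, fun τ => ?_⟩
    show (p : ℂ) * (ModularForm.discriminant ∣[(12 : ℤ)] heckeDiagMatrix p) τ /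
      ModularForm.discriminant τ = _
    rw [slash_heckeDiagMatrix, discriminant_eq_dDisc, discriminant_eq_dDisc,
      coe_heckeDiagMatrix_smul hp, qParam_one_mul p, qParam_one_eq_pow p (τ : ℂ), div_eq_mul_inv]
  | coe b =>
    have h1 := (isLaurentOf_dDisc.twist (zetaC p ^ b.val) (norm_zetaC_pow p _)).mul
      (isLaurentOf_dDisc_inv.qExpand p)
    refine ⟨_, h1, fun τ => ?_⟩
    show (p : ℂ) * (ModularForm.discriminant ∣[(12 : ℤ)] heckeMatrix p b.val) τ /
      ModularForm.discriminant τ = _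
    rw [slash_heckeMatrix, discriminant_eq_dDisc, discriminant_eq_dDisc,
      coe_heckeMatrix_smul hp, qParam_one_add_div p, qParam_one_eq_pow p (τ : ℂ), div_eq_mul_inv]

/-- **Modularity principle** (final form). -/
theorem exists_intPoly_of_isEval (p : ℕ) [NeZero p] {F : ℍ → ℂ} {f : LaurentSeries ℂ}
    (h : IsEval p F f) (hinv : ∀ (γ : SL(2, ℤ)) (τ : ℍ), F (γ • τ) = F τ)
    (hint : IntCoeffs f) :
    ∃ P : Polynomial ℤ, f = evalAt (baseS ℂ p) P :=
  exists_intPoly_of_isEval' p (isEval_base p) h hinv hint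

end Fermat.Agent.H17
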