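import Mathlib
import Fermat.Agent.H17.EvalInst
import Fermat.Agent.H42.HeckePermT1
import Fermat.Agent.H44.IgM.Integrality
import Fermat.Agent.H44.IgM.Reindex

/-!
# IG-M: Hecke data over `ℂ` (final assembly)

Seat `helper17` (project P-IGUSA, IG-M, part T4).

`hasHeckeData_complex : HasHeckeData ℂ`.
-/

set_option autoImplicit false

noncomputable section

open Filter Topology Metric ModularCurve Fermat.Agent.H27 UpperHalfPlane ModularForm
  Polynomial
open scoped MatrixGroups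

namespace Fermat.Agent.H17

/-! ### lifting polynomials along a ring hom coefficientwise -/

theorem exists_monic_lift {A B : Type*} [CommRing A] [CommRing B] [Nontrivial A] [Nontrivial B]
    (φ : A →+* B) (Q : Polynomial B) (hQ : Q.Monic)
    (h : ∀ k, ∃ a : A, Q.coeff k = φ a) :
    ∃ P : Polynomial A, P.Monic ∧ P.natDegree = Q.natDegree ∧ P.map φ = Q := by
  choose a ha using h
  set n := Q.natDegree with hn
  set R : Polynomial A := ∑ k ∈ Finset.range n, C (a k) * X ^ k with hR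
  have hdeg : R.degree < (n : WithBot ℕ) := by
    rw [Polynomial.degree_lt_iff_coeff_zero]
    intro m hm
    rw [hR, Polynomial.finsetSum_coeff]
    refine Finset.sum_eq_zero fun k hk => ?_
    rw [Polynomial.coeff_C_mul_X_pow, if_neg]
    have := Finset.mem_range.mp hk
    omega
  have hmon : (X ^ n + R).Monic := Polynomial.monic_X_pow_add hdeg
  refine ⟨X ^ n + R, hmon, ?_, ?_⟩
  · have h1 : (X ^ n + R).degree = (n : WithBot ℕ) := by
      rw [Polynomial.degree_add_eq_left_of_degree_lt (by rw [Polynomial.degree_X_pow]; exact hdeg),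
        Polynomial.degree_X_pow]
    exact Polynomial.natDegree_eq_of_degree_eq_some h1
  · rw [Polynomial.map_add, Polynomial.map_pow, Polynomial.map_X, hR, Polynomial.map_sum]
    conv_rhs => rw [hQ.as_sum]
    congr 1
    refine Finset.sum_congr rfl fun k _ => ?_
    rw [Polynomial.map_mul, Polynomial.map_C, Polynomial.map_pow, Polynomial.map_X, ← ha k]

theorem exists_lift {A B : Type*} [CommRing A] [CommRing B]
    (φ : A →+* B) (Q : Polynomial B) (h : ∀ k, ∃ a : A, Q.coeff k = φ a) :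
    ∃ P : Polynomial A, P.map φ = Q := by
  choose a ha using h
  refine ⟨∑ k ∈ Finset.range (Q.natDegree + 1), C (a k) * X ^ k, ?_⟩
  rw [Polynomial.map_sum]
  conv_rhs => rw [Q.as_sum_range_C_mul_X_pow]
  refine Finset.sum_congr rfl fun k _ => ?_
  rw [Polynomial.map_mul, Polynomial.map_C, Polynomial.map_pow, Polynomial.map_X, ← ha k]

/-! ### the coefficients are integer polynomials in `j(t^p)` -/

section Coeffs

variable (p : ℕ) [Fact p.Prime]

local instance : NeZero p := ⟨(Fact.out : p.Prime).ne_zero⟩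

theorem rAn_perm (γ : SL(2, ℤ)) :
    ∃ σ : Equiv.Perm (OnePoint (ZMod p)),
      (∀ τ : ℍ, (fun x => rAn p x (γ • τ)) = fun x => rAn p (σ x) τ) ∧
      (∀ τ : ℍ, (fun x => uAn p x (γ • τ)) = fun x => uAn p (σ x) τ) := by
  obtain ⟨σ, hσ⟩ := Fermat.Agent.H42.exists_perm p γ
  exact ⟨σ, fun τ => funext fun x => (hσ x τ).1, fun τ => funext fun x => (hσ x τ).2⟩

theorem exists_intPoly_symPhi_r (k : ℕ) :
    ∃ P : Polynomial ℤ, (symPhi (rFo p (zetaC p))).coeff k = evalAt (baseS ℂ p) P := by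
  have hp : p.Prime := Fact.out
  refine exists_intPoly_of_isEval p
    (isEval_symPhi_coeff (rAn p) (rFo p (zetaC p)) (isEval_rAn p) k) (fun γ τ => ?_)
    ((Fermat.Agent.H44.formal_integrality p hp (zetaC p) (isPrimitiveRoot_zetaC p)).1 k)
  obtain ⟨σ, hσ, -⟩ := rAn_perm p γ
  rw [hσ τ, symPhi_comp_equiv σ (fun x => rAn p x τ)]

theorem exists_intPoly_symPhi_u (k : ℕ) :
    ∃ P : Polynomial ℤ, (symPhi (uFo p (zetaC p))).coeff k = evalAt (baseS ℂ p) P := by
  have hp : p.Prime := Fact.out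
  refine exists_intPoly_of_isEval p
    (isEval_symPhi_coeff (uAn p) (uFo p (zetaC p)) (isEval_uAn p) k) (fun γ τ => ?_)
    ((Fermat.Agent.H44.formal_integrality p hp (zetaC p) (isPrimitiveRoot_zetaC p)).2.1 k)
  obtain ⟨σ, -, hσ⟩ := rAn_perm p γ
  rw [hσ τ, symPhi_comp_equiv σ (fun x => uAn p x τ)]

theorem exists_intPoly_symL (k : ℕ) :
    ∃ P : Polynomial ℤ,
      (symL (rFo p (zetaC p)) (uFo p (zetaC p))).coeff k = evalAt (baseS ℂ p) P := by
  have hp : p.Prime := Fact.out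
  refine exists_intPoly_of_isEval p
    (isEval_symL_coeff (rAn p) (uAn p) (rFo p (zetaC p)) (uFo p (zetaC p)) (isEval_rAn p)
      (isEval_uAn p) k) (fun γ τ => ?_)
    ((Fermat.Agent.H44.formal_integrality p hp (zetaC p) (isPrimitiveRoot_zetaC p)).2.2 k)
  obtain ⟨σ, hσ, hσ'⟩ := rAn_perm p γ
  rw [hσ τ, hσ' τ, symL_comp_equiv σ (fun x => rAn p x τ) (fun x => uAn p x τ)]

end Coeffs

/-! ### reindexing the product over `OnePoint (ZMod p)` -/

theorem prod_zmod_val {M : Type*} [CommMonoid M] (p : ℕ) [NeZero p] (f : ℕ → M) :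
    ∏ b : ZMod p, f b.val = ∏ b ∈ Finset.range p, f b := by
  obtain ⟨n, rfl⟩ : ∃ n, p = n + 1 := Nat.exists_eq_succ_of_ne_zero (NeZero.ne p)
  exact Fin.prod_univ_eq_prod_range f (n + 1)

theorem symPhi_rFo_factor (p : ℕ) [NeZero p] (ζ : ℂˣ) :
    symPhi (rFo p ζ) = (X - C (rootInf ℂ p)) *
      ∏ b ∈ Finset.range p, (X - C (rootFin (ζ ^ b))) := by
  unfold symPhi
  rw [show (∏ x : OnePoint (ZMod p), (X - C (rFo p ζ x))) =
      ∏ x : Option (ZMod p), (X - C (rFo p ζ x)) from rfl, Fintype.prod_option]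
  congr 1
  exact prod_zmod_val p (fun b => (X - C (rootFin (ζ ^ b)) : Polynomial (LaurentSeries ℂ)))

theorem card_onePoint_zmod (p : ℕ) [NeZero p] : Fintype.card (OnePoint (ZMod p)) = p + 1 := by
  rw [show Fintype.card (OnePoint (ZMod p)) = Fintype.card (Option (ZMod p)) from rfl,
    Fintype.card_option, ZMod.card]

/-! ### the theorem -/

theorem heckeDataOver_complex (p : ℕ) [NeZero p] (hp : p.Prime) (ζ : ℂˣ)
    (hζ : IsPrimitiveRoot (ζ : ℂ) p) : Nonempty (HeckeDataOver p ℂ ζ) := by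
  have : Fact p.Prime := ⟨hp⟩
  obtain ⟨σ, hσi, hσ⟩ := Fermat.Agent.H44.symPhi_rFo_eq p hp ζ hζ
  have hr : rFo p ζ = fun x => rFo p (zetaC p) (σ x) := funext fun x => (hσ x).1
  have hu : uFo p ζ = fun x => uFo p (zetaC p) (σ x) := funext fun x => (hσ x).2
  have hΦeq : symPhi (rFo p ζ) = symPhi (rFo p (zetaC p)) := by
    rw [hr, symPhi_comp_equiv σ (rFo p (zetaC p))]
  have hΨeq : symPhi (uFo p ζ) = symPhi (uFo p (zetaC p)) := by
    rw [hu, symPhi_comp_equiv σ (uFo p (zetaC p))]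
  have hLeq : symL (rFo p ζ) (uFo p ζ) = symL (rFo p (zetaC p)) (uFo p (zetaC p)) := by
    rw [hr, hu, symL_comp_equiv σ (rFo p (zetaC p)) (uFo p (zetaC p))]
  obtain ⟨Φ, hΦm, hΦd, hΦ⟩ := exists_monic_lift (evalAt (baseS ℂ p)) (symPhi (rFo p ζ))
    (symPhi_monic _) (fun k => by rw [hΦeq]; exact exists_intPoly_symPhi_r p k)
  obtain ⟨Ψ, hΨm, -, hΨ⟩ := exists_monic_lift (evalAt (baseS ℂ p)) (symPhi (uFo p ζ))
    (symPhi_monic _) (fun k => by rw [hΨeq]; exact exists_intPoly_symPhi_u p k)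
  obtain ⟨L, hL⟩ := exists_lift (evalAt (baseS ℂ p)) (symL (rFo p ζ) (uFo p ζ))
    (fun k => by rw [hLeq]; exact exists_intPoly_symL p k)
  refine ⟨{
    Φ := Φ
    Ψ := Ψ
    L := L
    Φ_monic := hΦm
    Φ_natDegree := by rw [hΦd, symPhi_natDegree, card_onePoint_zmod]
    Ψ_monic := hΨm
    Φ_factor := by rw [hΦ, symPhi_rFo_factor]
    Ψ_root := by
      rw [hΨ]
      exact symPhi_eval_self (uFo p ζ) OnePoint.infty
    L_inf := by
      rw [hL, hΦ]
      exact symL_eval_self (rFo p ζ) (uFo p ζ) OnePoint.infty }⟩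

/-- **IG-M.** Hecke data exist over `ℂ`. -/
theorem hasHeckeData_complex : HasHeckeData ℂ := fun p _ hp ζ hζ =>
  heckeDataOver_complex p hp ζ hζ

end Fermat.Agent.H17
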