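import Fermat.Agent.H17.S16Trace
import Fermat.Agent.H1.S16L2.Interfaces

/-!
# P-S16, row L2-TR: the conjugates of a weight-2 form on `Γ₀(p)` (helper17)

`(H ∣ S T^j)(z) = -(1/p) ∑_n a_{pn}(H) exp(2 π i n (z + j) / p)` for `H ∈ M₂(Γ₀(p))`.
-/

set_option autoImplicit false

namespace Fermat.Agent.H17

open UpperHalfPlane CongruenceSubgroup ModularForm
open scoped MatrixGroups ModularForm Real Manifold

/-- the character sum `∑_{i < p} exp(2 π i n i / p)` -/
theorem sum_exp_mul_div (p : ℕ) (hp : p ≠ 0) (n : ℕ) :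
    ∑ i ∈ Finset.range p, Complex.exp (2 * π * Complex.I * n * i / p) =
      if p ∣ n then (p : ℂ) else 0 := by
  have hζ := Complex.isPrimitiveRoot_exp p hp
  set ζ : ℂ := Complex.exp (2 * π * Complex.I / p) with hζdef
  have h1 : ∀ i : ℕ, Complex.exp (2 * π * Complex.I * n * i / p) = (ζ ^ n) ^ i := by
    intro i
    rw [hζdef, ← Complex.exp_nat_mul, ← Complex.exp_nat_mul]
    congr 1
    ring
  simp only [h1]
  split_ifs with hd
  · have h2 : ζ ^ n = 1 := (hζ.pow_eq_one_iff_dvd n).mpr hd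
    simp [h2]
  · have h2 : ζ ^ n ≠ 1 := fun h => hd ((hζ.pow_eq_one_iff_dvd n).mp h)
    rw [geom_sum_eq h2, ← pow_mul, mul_comm, pow_mul, hζ.pow_eq_one, one_pow, sub_self, zero_div]

theorem one_mem_strictPeriods_Gamma0 (p : ℕ) :
    (1 : ℝ) ∈ (Subgroup.map (Matrix.SpecialLinearGroup.mapGL ℝ) (Gamma0 p)).strictPeriods := by
  rw [Subgroup.mem_strictPeriods_iff]
  refine ⟨ModularGroup.T, ?_, ?_⟩
  · show ModularGroup.T ∈ Gamma0 p
    rw [Gamma0_mem]
    simp [ModularGroup.T]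
  · change ((ModularGroup.T : SL(2, ℤ)) : GL (Fin 2) ℝ) = _
    apply Units.ext
    rw [coeGL_T]
    ext a b
    fin_cases a <;> fin_cases b <;> simp [Matrix.GeneralLinearGroup.upperRightHom]

/-- the `q`-expansion of a form on `Γ₀(p)` converges to the form -/
theorem hasSum_qExpansion_Gamma0 {p : ℕ} [NeZero p] {k : ℤ} (H : ModularForm (Gamma0 p) k)
    (τ : ℍ) :
    HasSum (fun n : ℕ => PowerSeries.coeff n (qExpansion 1 (⇑H)) *
      Complex.exp (2 * π * Complex.I * n * (τ : ℂ))) (H τ) := by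
  have h := ModularForm.hasSum_qExpansion (f := H) one_pos (one_mem_strictPeriods_Gamma0 p) τ
  convert h using 2 with n
  rw [Function.Periodic.qParam, ← Complex.exp_nat_mul]
  congr 1
  simp only [Complex.ofReal_one, div_one]
  ring_nf

/-- `(Y ∣ S)(w) = - p⁻² ∑_{i < p} Y ((w + p i) / p²)` for `Y ∈ M₂(Γ₀(p))` -/
theorem slash_S_eq_sum {p : ℕ} [Fact p.Prime] (Y : ModularForm (Gamma0 p) 2) (w : ℍ) :
    ((⇑Y) ∣[(2 : ℤ)] ModularGroup.S) w =
      -((p : ℂ)⁻¹ * ((p : ℂ)⁻¹ *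
        ∑ i ∈ Finset.range p, Y (heckeMatrix p i • (heckeMatrix p 0 • w)))) := by
  have hp : p ≠ 0 := (Fact.out : p.Prime).ne_zero
  have hp' : (p : ℂ) ≠ 0 := by exact_mod_cast hp
  have h := slash_S_heckeDiag_eq Y (heckeMatrix p 0 • w)
  have hw : heckeDiagMatrix p • (heckeMatrix p 0 • w) = w := by
    apply UpperHalfPlane.ext
    rw [coe_heckeDiagMatrix_smul hp, coe_heckeMatrix_smul hp]
    field_simp
    simp
  rw [hw] at h
  have h2 : ((⇑Y) ∣[(2 : ℤ)] ModularGroup.S) w =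
      (p : ℂ)⁻¹ * ((p : ℂ) * ((⇑Y) ∣[(2 : ℤ)] ModularGroup.S) w) := by
    field_simp
  rw [h2, h]
  ring

/-- the coordinate of `[[1, i], [0, p]] • [[1, 0], [0, p]] • w` -/
theorem coe_hm_hm_smul {p : ℕ} (hp : p ≠ 0) (i : ℕ) (w : ℍ) :
    ((heckeMatrix p i • (heckeMatrix p 0 • w) : ℍ) : ℂ) = ((w : ℂ) / p + i) / p := by
  rw [coe_heckeMatrix_smul hp, coe_heckeMatrix_smul hp]
  simp

/-- the expansion of `Y ∣ S` in `exp(2 π i w / p)` -/
theorem hasSum_slash_S {p : ℕ} [Fact p.Prime] (Y : ModularForm (Gamma0 p) 2) (w : ℍ) :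
    HasSum (fun n : ℕ => -(p : ℂ)⁻¹ * PowerSeries.coeff (p * n) (qExpansion 1 (⇑Y)) *
        Complex.exp (2 * π * Complex.I * n * (w : ℂ) / p))
      (((⇑Y) ∣[(2 : ℤ)] ModularGroup.S) w) := by
  have hp : p ≠ 0 := (Fact.out : p.Prime).ne_zero
  have hp' : (p : ℂ) ≠ 0 := by exact_mod_cast hp
  have : NeZero p := ⟨hp⟩
  rw [slash_S_eq_sum Y w]
  -- the sum over `i` of the `q`-expansions
  have h1 : HasSum (fun n : ℕ => ∑ i ∈ Finset.range p,
      PowerSeries.coeff n (qExpansion 1 (⇑Y)) *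
        Complex.exp (2 * π * Complex.I * n *
          ((heckeMatrix p i • (heckeMatrix p 0 • w) : ℍ) : ℂ)))
      (∑ i ∈ Finset.range p, Y (heckeMatrix p i • (heckeMatrix p 0 • w))) :=
    hasSum_sum fun i _ => hasSum_qExpansion_Gamma0 Y _
  -- evaluate the character sums
  have h2 : ∀ n : ℕ, ∑ i ∈ Finset.range p,
      PowerSeries.coeff n (qExpansion 1 (⇑Y)) *
        Complex.exp (2 * π * Complex.I * n *
          ((heckeMatrix p i • (heckeMatrix p 0 • w) : ℍ) : ℂ)) =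
      if p ∣ n then PowerSeries.coeff n (qExpansion 1 (⇑Y)) *
        Complex.exp (2 * π * Complex.I * n * (w : ℂ) / (p * p)) * p else 0 := by
    intro n
    have h3 : ∀ i : ℕ, Complex.exp (2 * π * Complex.I * n *
          ((heckeMatrix p i • (heckeMatrix p 0 • w) : ℍ) : ℂ)) =
        Complex.exp (2 * π * Complex.I * n * (w : ℂ) / (p * p)) *
          Complex.exp (2 * π * Complex.I * n * i / p) := by
      intro i
      rw [coe_hm_hm_smul hp, ← Complex.exp_add]
      congr 1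
      field_simp
    simp only [h3]
    rw [← Finset.mul_sum, ← Finset.mul_sum, sum_exp_mul_div p hp n]
    split_ifs <;> simp [mul_assoc]
  simp only [h2] at h1
  -- reindex along the multiples of `p`
  have hinj : Function.Injective (fun m : ℕ => p * m) := fun a b h =>
    Nat.eq_of_mul_eq_mul_left (Nat.pos_of_ne_zero hp) h
  have h4 := (Function.Injective.hasSum_iff hinj (f := fun n : ℕ =>
      if p ∣ n then PowerSeries.coeff n (qExpansion 1 (⇑Y)) *
        Complex.exp (2 * π * Complex.I * n * (w : ℂ) / (p * p)) * p else 0) (by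
      intro n hn
      rw [if_neg]
      rintro ⟨m, rfl⟩
      exact hn ⟨m, rfl⟩)).mpr h1
  have h5 := ((h4.mul_left ((p : ℂ)⁻¹)).mul_left ((p : ℂ)⁻¹)).neg
  have h7 : (fun n : ℕ => -(p : ℂ)⁻¹ * PowerSeries.coeff (p * n) (qExpansion 1 (⇑Y)) *
        Complex.exp (2 * π * Complex.I * n * (w : ℂ) / p)) =
      fun b => -((p : ℂ)⁻¹ * ((p : ℂ)⁻¹ * ((fun n : ℕ =>
        if p ∣ n then PowerSeries.coeff n (qExpansion 1 (⇑Y)) *
          Complex.exp (2 * π * Complex.I * n * (w : ℂ) / (p * p)) * p else 0) ∘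
          fun m => p * m) b)) := by
    funext m
    simp only [Function.comp_apply, dvd_mul_right, if_true]
    have h6 : Complex.exp (2 * π * Complex.I * ((p * m : ℕ) : ℂ) * (w : ℂ) / (p * p)) =
        Complex.exp (2 * π * Complex.I * m * (w : ℂ) / p) := by
      congr 1
      push_cast
      field_simp
    rw [h6]
    field_simp
  rw [h7]
  exact h5

/-- **P-S16, L2-TR.** -/
theorem conjStatement : Fermat.Agent.H1.S16L2.ConjStatement := by
  intro p hp H j z
  have : Fact p.Prime := ⟨hp⟩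
  have h := hasSum_slash_S H (ModularGroup.T ^ j • z)
  have h1 : ((⇑H) ∣[(2 : ℤ)] (ModularGroup.S * ModularGroup.T ^ j)) z =
      ((⇑H) ∣[(2 : ℤ)] ModularGroup.S) (ModularGroup.T ^ j • z) := by
    rw [SlashAction.slash_mul, ModularForm.SL_slash_apply (k := 2) _ (ModularGroup.T ^ j) z]
    have hd : denom ((ModularGroup.T ^ j : SL(2, ℤ)) : GL (Fin 2) ℝ) (z : ℂ) = 1 := by
      rw [denom, coeGL_SL, ModularGroup.coe_T_zpow]
      simp
    rw [hd]
    simp
  rw [h1]
  have h8 : (fun n : ℕ => -(p : ℂ)⁻¹ * PowerSeries.coeff (p * n) (qExpansion 1 (⇑H)) *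
        Complex.exp (2 * π * Complex.I * n * ((z : ℂ) + j) / p)) =
      fun n : ℕ => -(p : ℂ)⁻¹ * PowerSeries.coeff (p * n) (qExpansion 1 (⇑H)) *
        Complex.exp (2 * π * Complex.I * n * ((ModularGroup.T ^ j • z : ℍ) : ℂ) / p) := by
    funext n
    rw [ModularGroup.coe_T_zpow_smul_eq]
  rw [h8]
  exact h

end Fermat.Agent.H17
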