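import Fermat.Agent.H17.S16Up

/-!
# P-S16, row UB-TRSQ: the trace of `H²` to level one (helper17)

`p H² + U_p((U_p H)²) = a₀(H)² (p + 1) E₄` for `H ∈ M₂(Γ₀(p))`.
-/

set_option autoImplicit false

namespace Fermat.Agent.H17

open UpperHalfPlane CongruenceSubgroup ModularForm EisensteinSeries
open scoped MatrixGroups ModularForm Real Manifold

theorem coeff_upSeries (p : ℕ) (f : PowerSeries ℂ) (n : ℕ) :
    PowerSeries.coeff n (Fermat.Agent.H6.S16UB.upSeries p f) = PowerSeries.coeff (p * n) f := by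
  rw [Fermat.Agent.H6.S16UB.upSeries, PowerSeries.coeff_mk]

/-- the square of a weight-2 form, as a form of weight 4 -/
noncomputable def sqForm {p : ℕ} (K : ModularForm (Gamma0 p) 2) : ModularForm (Gamma0 p) 4 :=
  ModularForm.mcast (by norm_num) (K.mul K)

@[simp] theorem coe_sqForm {p : ℕ} (K : ModularForm (Gamma0 p) 2) :
    ⇑(sqForm K) = ⇑K * ⇑K := rfl

theorem qExpansion_sqForm {p : ℕ} [NeZero p] (K : ModularForm (Gamma0 p) 2) :
    qExpansion 1 (⇑(sqForm K)) = qExpansion 1 (⇑K) ^ 2 := by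
  rw [coe_sqForm, pow_two]
  exact ModularForm.qExpansion_mul_coe one_pos (one_mem_strictPeriods_Gamma0 p) K K

theorem hasSum_sqForm {p : ℕ} [NeZero p] (K : ModularForm (Gamma0 p) 2) (τ : ℍ) :
    HasSum (fun n : ℕ => PowerSeries.coeff n (qExpansion 1 (⇑K) ^ 2) *
      Complex.exp (2 * π * Complex.I * n * (τ : ℂ))) (K τ ^ 2) := by
  have h := hasSum_qExpansion_Gamma0 (sqForm K) τ
  rw [qExpansion_sqForm] at h
  simpa [pow_two] using h

/-- the Fricke part of the trace of `(U_p H)²` is `p H²` -/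
theorem fricke_sqForm_upForm {p : ℕ} [Fact p.Prime] (H : ModularForm (Gamma0 p) 2) (τ : ℍ) :
    (((⇑(sqForm (upForm H))) ∣[(4 : ℤ)] ((ModularGroup.S : SL(2, ℤ)) : GL (Fin 2) ℝ)) ∣[(4 : ℤ)]
      heckeDiagMatrix p) τ = p * H τ ^ 2 := by
  have hp : p ≠ 0 := (Fact.out : p.Prime).ne_zero
  have hpc : (p : ℂ) ≠ 0 := by exact_mod_cast hp
  rw [slash_heckeDiagMatrix_apply 4 hp]
  have h1 : (⇑(sqForm (upForm H))) ∣[(4 : ℤ)] ((ModularGroup.S : SL(2, ℤ)) : GL (Fin 2) ℝ) =
      ((⇑(upForm H)) ∣[(2 : ℤ)] ModularGroup.S) * ((⇑(upForm H)) ∣[(2 : ℤ)] ModularGroup.S) := by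
    rw [coe_sqForm]
    exact ModularForm.mul_slash_SL2 2 2 ModularGroup.S _ _
  rw [h1, Pi.mul_apply]
  have h2 := slash_S_heckeDiag_eq (upForm H) τ
  rw [← heckeU_apply 2 hp, coe_upForm, heckeU_heckeU] at h2
  have h3 : ((⇑(upForm H)) ∣[(2 : ℤ)] ModularGroup.S) (heckeDiagMatrix p • τ) =
      -(p : ℂ)⁻¹ * H τ := by
    rw [coe_upForm]
    field_simp
    linear_combination h2
  rw [h3]
  norm_num
  field_simp

/-- the trace of `(U_p H)²`, a modular form of weight 4 and level one -/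
noncomputable def trSqForm {p : ℕ} [Fact p.Prime] (H : ModularForm (Gamma0 p) 2) :
    ModularForm (Matrix.SpecialLinearGroup.mapGL ℝ : SL(2, ℤ) →* GL (Fin 2) ℝ).range 4 :=
  frickeTraceForm (sqForm (upForm H))

theorem trSqForm_apply {p : ℕ} [Fact p.Prime] (H : ModularForm (Gamma0 p) 2) (τ : ℍ) :
    trSqForm H τ = p * H τ ^ 2 + heckeU 4 p (⇑(sqForm (upForm H))) τ := by
  have h : trSqForm H τ = frickeTrace 4 p (⇑(sqForm (upForm H))) τ := rfl
  rw [h, frickeTrace, Pi.add_apply, fricke_sqForm_upForm]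

/-- the `q`-expansion of the trace -/
theorem qExpansion_trSqForm {p : ℕ} [Fact p.Prime] (H : ModularForm (Gamma0 p) 2) :
    qExpansion 1 (⇑(trSqForm H)) = (p : PowerSeries ℂ) * qExpansion 1 (⇑H) ^ 2 +
      Fermat.Agent.H6.S16UB.upSeries p
        (Fermat.Agent.H6.S16UB.upSeries p (qExpansion 1 (⇑H)) ^ 2) := by
  have : NeZero p := ⟨(Fact.out : p.Prime).ne_zero⟩
  ext n
  refine (ModularFormClass.qExpansion_coeff_unique (f := trSqForm H) one_pos
    one_mem_strictPeriods_SL (c := fun n => PowerSeries.coeff n ((p : PowerSeries ℂ) *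
      qExpansion 1 (⇑H) ^ 2 + Fermat.Agent.H6.S16UB.upSeries p
        (Fermat.Agent.H6.S16UB.upSeries p (qExpansion 1 (⇑H)) ^ 2))) (fun τ => ?_) n).symm
  rw [trSqForm_apply]
  have h1 := (hasSum_sqForm H τ).mul_left (p : ℂ)
  have h2 := hasSum_heckeU (sqForm (upForm H)) τ
  rw [qExpansion_sqForm, qExpansion_upForm] at h2
  have h3 := h1.add h2
  have h7 : (fun m : ℕ => (fun n => PowerSeries.coeff n ((p : PowerSeries ℂ) *
        qExpansion 1 (⇑H) ^ 2 + Fermat.Agent.H6.S16UB.upSeries p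
          (Fermat.Agent.H6.S16UB.upSeries p (qExpansion 1 (⇑H)) ^ 2))) m •
        Function.Periodic.qParam 1 (τ : ℂ) ^ m) =
      fun n : ℕ => (p : ℂ) * (PowerSeries.coeff n (qExpansion 1 (⇑H) ^ 2) *
          Complex.exp (2 * π * Complex.I * n * (τ : ℂ))) +
        PowerSeries.coeff (p * n) (Fermat.Agent.H6.S16UB.upSeries p (qExpansion 1 (⇑H)) ^ 2) *
          Complex.exp (2 * π * Complex.I * n * (τ : ℂ)) := by
    funext m
    have h8 : Function.Periodic.qParam 1 (τ : ℂ) ^ m =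
        Complex.exp (2 * π * Complex.I * m * (τ : ℂ)) := by
      rw [Function.Periodic.qParam, ← Complex.exp_nat_mul]
      congr 1
      simp only [Complex.ofReal_one, div_one]
      ring_nf
    rw [h8, smul_eq_mul]
    beta_reduce
    rw [map_add, coeff_upSeries,
      show (p : PowerSeries ℂ) = PowerSeries.C (p : ℂ) from (map_natCast PowerSeries.C p).symm,
      PowerSeries.coeff_C_mul]
    ring
  rw [h7]
  exact h3

/-- the `q`-expansion of `E₄` in the shape of the interface -/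
theorem qExpansion_E₄_sigmaSeries :
    qExpansion 1 (⇑E₄) =
      1 + 240 * (Fermat.Agent.H6.S16UB.sigmaSeries 3).map (Int.castRingHom ℂ) := by
  ext m
  rw [E_qExpansion_coeff _ ⟨2, rfl⟩]
  have hb : bernoulli 4 = -1 / 30 := by decide +kernel
  rw [map_add, show (240 : PowerSeries ℂ) = PowerSeries.C (240 : ℂ) from
    (map_ofNat PowerSeries.C 240).symm, PowerSeries.coeff_C_mul, PowerSeries.coeff_map,
    Fermat.Agent.H6.S16UB.sigmaSeries, PowerSeries.coeff_mk, PowerSeries.coeff_one]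
  split_ifs with h
  · simp
  · rw [hb]
    push_cast
    norm_num

/-- every level-one form of weight 4 is a multiple of `E₄` -/
theorem exists_smul_E₄
    (G : ModularForm (Matrix.SpecialLinearGroup.mapGL ℝ : SL(2, ℤ) →* GL (Fin 2) ℝ).range 4) :
    ∃ c : ℂ, G = c • E₄ := by
  have hE : (E₄ : ModularForm _ 4) ≠ 0 := by
    intro h
    have h1 := E₄_qExpansion_coeff_one
    rw [h] at h1
    simp [UpperHalfPlane.qExpansion_zero] at h1
  have hfin : Module.finrank ℂ (ModularForm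
      (Matrix.SpecialLinearGroup.mapGL ℝ : SL(2, ℤ) →* GL (Fin 2) ℝ).range 4) = 1 := by
    rw [Module.finrank, ModularForm.levelOne_weight_four_rank_one]
    simp
  obtain ⟨c, hc⟩ := (finrank_eq_one_iff_of_nonzero' E₄ hE).mp hfin G
  exact ⟨c, hc.symm⟩

/-- **P-S16, UB-TRSQ.** -/
theorem traceSqStatement : Fermat.Agent.H6.S16UB.TraceSqStatement := by
  intro p hp H
  have : Fact p.Prime := ⟨hp⟩
  obtain ⟨c, hc⟩ := exists_smul_E₄ (trSqForm H)
  have h1 := qExpansion_trSqForm H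
  have h2 : qExpansion 1 (⇑(trSqForm H)) = c • qExpansion 1 (⇑E₄) := by
    rw [hc]
    exact ModularForm.qExpansion_smul one_pos one_mem_strictPeriods_SL c E₄
  rw [← h1, h2, qExpansion_E₄_sigmaSeries]
  -- identify the constant
  have h3 := congrArg (PowerSeries.coeff 0) h1
  rw [h2, qExpansion_E₄_sigmaSeries] at h3
  have h4 : c = PowerSeries.coeff 0 (qExpansion 1 (⇑H)) ^ 2 * (p + 1) := by
    have h5 : PowerSeries.coeff 0 (c • (1 + 240 *
        (Fermat.Agent.H6.S16UB.sigmaSeries 3).map (Int.castRingHom ℂ))) = c := by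
      rw [PowerSeries.coeff_smul, map_add,
        show (240 : PowerSeries ℂ) = PowerSeries.C (240 : ℂ) from
          (map_ofNat PowerSeries.C 240).symm, PowerSeries.coeff_C_mul, PowerSeries.coeff_map,
        Fermat.Agent.H6.S16UB.sigmaSeries, PowerSeries.coeff_mk]
      simp
    rw [h5] at h3
    rw [h3, map_add, coeff_upSeries, mul_zero,
      show (p : PowerSeries ℂ) = PowerSeries.C (p : ℂ) from (map_natCast PowerSeries.C p).symm,
      PowerSeries.coeff_C_mul]
    simp only [pow_two, PowerSeries.coeff_mul, Finset.Nat.antidiagonal_zero,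
      Finset.sum_singleton, coeff_upSeries, mul_zero]
    ring
  rw [h4, ← PowerSeries.smul_eq_C_mul]

end Fermat.Agent.H17
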