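import Mathlib
import Fermat.Prelude.Def_ModularForm_HeckeOperator

/-!
# The Fricke trace of a modular form on `Γ₀(p)` (helper17, P-S16)

For `Y ∈ M_k(Γ₀(p))`, `p` prime, the function

  `frickeTrace k p Y = (Y ∣[k] S) ∣[k] diag(p, 1) + U_p Y`

(`U_p Y = ∑_{j < p} Y ∣[k] [[1, j], [0, p]]`, the prelude's `ModularForm.heckeU`) is a modular form
of weight `k` and level one (it is the trace of the Fricke transform `Y ∣ [[0, -1], [p, 0]]`).
In weight `2` it vanishes, which gives the expansion of `Y ∣ S` at the cusp `0`: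
`(Y ∣[2] S) (p τ) = - p⁻² ∑_{j < p} Y ((τ + j) / p)`.
-/

set_option autoImplicit false

namespace Fermat.Agent.H17

open UpperHalfPlane CongruenceSubgroup ModularForm
open scoped MatrixGroups ModularForm Real Manifold

/-! ### matrices -/

/-- an element of `SL(2, ℤ)` from its entries -/
def conjSL (a b c d : ℤ) (h : a * d - b * c = 1) : SL(2, ℤ) :=
  ⟨!![a, b; c, d], by rw [Matrix.det_fin_two_of]; exact h⟩

theorem coeGL_SL (γ : SL(2, ℤ)) :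
    (((γ : SL(2, ℤ)) : GL (Fin 2) ℝ) : Matrix (Fin 2) (Fin 2) ℝ) =
      !![((γ 0 0 : ℤ) : ℝ), ((γ 0 1 : ℤ) : ℝ); ((γ 1 0 : ℤ) : ℝ), ((γ 1 1 : ℤ) : ℝ)] := by
  ext i j
  fin_cases i <;> fin_cases j <;> simp

theorem coeGL_conjSL (a b c d : ℤ) (h : a * d - b * c = 1) :
    (((conjSL a b c d h : SL(2, ℤ)) : GL (Fin 2) ℝ) : Matrix (Fin 2) (Fin 2) ℝ) =
      !![(a : ℝ), (b : ℝ); (c : ℝ), (d : ℝ)] := by
  rw [coeGL_SL]
  simp [conjSL]

theorem coeGL_S :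
    (((ModularGroup.S : SL(2, ℤ)) : GL (Fin 2) ℝ) : Matrix (Fin 2) (Fin 2) ℝ) =
      !![(0 : ℝ), -1; 1, 0] := by
  rw [coeGL_SL]
  simp [ModularGroup.S]

theorem coeGL_T :
    (((ModularGroup.T : SL(2, ℤ)) : GL (Fin 2) ℝ) : Matrix (Fin 2) (Fin 2) ℝ) =
      !![(1 : ℝ), 1; 0, 1] := by
  rw [coeGL_SL]
  simp [ModularGroup.T]

theorem conjSL_mem_Gamma0 (p : ℕ) (a b c d : ℤ) (h : a * d - b * c = 1) (hc : (p : ℤ) ∣ c) :
    conjSL a b c d h ∈ Gamma0 p := by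
  rw [Gamma0_mem]
  simp only [conjSL, Matrix.SpecialLinearGroup.coe_mk, Matrix.of_apply, Matrix.cons_val',
    Matrix.cons_val_one, Matrix.cons_val_zero]
  exact (ZMod.intCast_zmod_eq_zero_iff_dvd c p).mpr hc

/-- `[[1, j], [0, p]] T = [[1, j + 1], [0, p]]` -/
theorem hm_mul_T {p : ℕ} (hp : p ≠ 0) (j : ℕ) :
    heckeMatrix p j * ((ModularGroup.T : SL(2, ℤ)) : GL (Fin 2) ℝ) = heckeMatrix p (j + 1) := by
  apply Units.ext
  rw [Units.val_mul, val_heckeMatrix hp, val_heckeMatrix hp, coeGL_T]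
  ext a b
  fin_cases a <;> fin_cases b <;> simp [Matrix.mul_apply, Fin.sum_univ_two]
  ring

/-- `T [[1, 0], [0, p]] = [[1, p], [0, p]]` -/
theorem T_mul_hm {p : ℕ} (hp : p ≠ 0) :
    ((ModularGroup.T : SL(2, ℤ)) : GL (Fin 2) ℝ) * heckeMatrix p 0 = heckeMatrix p p := by
  apply Units.ext
  rw [Units.val_mul, val_heckeMatrix hp, val_heckeMatrix hp, coeGL_T]
  ext a b
  fin_cases a <;> fin_cases b <;> simp [Matrix.mul_apply, Fin.sum_univ_two]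

/-- `S diag(p, 1) T = [[1, 0], [-p, 1]] S diag(p, 1)` -/
theorem S_diag_T {p : ℕ} (hp : p ≠ 0) :
    ((ModularGroup.S : SL(2, ℤ)) : GL (Fin 2) ℝ) * heckeDiagMatrix p *
        ((ModularGroup.T : SL(2, ℤ)) : GL (Fin 2) ℝ) =
      ((conjSL 1 0 (-p) 1 (by ring) : SL(2, ℤ)) : GL (Fin 2) ℝ) *
        ((ModularGroup.S : SL(2, ℤ)) : GL (Fin 2) ℝ) * heckeDiagMatrix p := by
  apply Units.ext
  simp only [Units.val_mul, val_heckeDiagMatrix hp, coeGL_T, coeGL_S, coeGL_conjSL]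
  ext a b
  fin_cases a <;> fin_cases b <;> simp [Matrix.mul_apply, Fin.sum_univ_two]

/-- `S diag(p, 1) S = (-1) [[1, 0], [0, p]]` -/
theorem S_diag_S {p : ℕ} (hp : p ≠ 0) :
    ((ModularGroup.S : SL(2, ℤ)) : GL (Fin 2) ℝ) * heckeDiagMatrix p *
        ((ModularGroup.S : SL(2, ℤ)) : GL (Fin 2) ℝ) =
      ((conjSL (-1) 0 0 (-1) (by ring) : SL(2, ℤ)) : GL (Fin 2) ℝ) * heckeMatrix p 0 := by
  apply Units.ext
  simp only [Units.val_mul, val_heckeDiagMatrix hp, val_heckeMatrix hp, coeGL_S, coeGL_conjSL]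
  ext a b
  fin_cases a <;> fin_cases b <;> simp [Matrix.mul_apply, Fin.sum_univ_two]

/-- `[[1, 0], [0, p]] S = S diag(p, 1)` -/
theorem hm_zero_mul_S {p : ℕ} (hp : p ≠ 0) :
    heckeMatrix p 0 * ((ModularGroup.S : SL(2, ℤ)) : GL (Fin 2) ℝ) =
      ((ModularGroup.S : SL(2, ℤ)) : GL (Fin 2) ℝ) * heckeDiagMatrix p := by
  apply Units.ext
  simp only [Units.val_mul, val_heckeDiagMatrix hp, val_heckeMatrix hp, coeGL_S]
  ext a b
  fin_cases a <;> fin_cases b <;> simp [Matrix.mul_apply, Fin.sum_univ_two]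

/-- `[[1, j], [0, p]] S = [[j, -t], [p, -j']] [[1, j'], [0, p]]` when `j j' + 1 = p t` -/
theorem hm_mul_S {p : ℕ} (hp : p ≠ 0) (j j' : ℕ) (t : ℤ) (h : (j : ℤ) * j' + 1 = p * t) :
    heckeMatrix p j * ((ModularGroup.S : SL(2, ℤ)) : GL (Fin 2) ℝ) =
      ((conjSL j (-t) p (-j') (by linear_combination -h) : SL(2, ℤ)) : GL (Fin 2) ℝ) *
        heckeMatrix p j' := by
  apply Units.ext
  simp only [Units.val_mul, val_heckeMatrix hp, coeGL_S, coeGL_conjSL]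
  have h' : (j : ℝ) * j' + 1 = p * t := by exact_mod_cast h
  ext a b
  fin_cases a <;> fin_cases b <;> simp [Matrix.mul_apply, Fin.sum_univ_two] <;>
    first | ring1 | linear_combination -h'

/-! ### the involution `j ↦ -1/j` on `{1, …, p - 1}` -/

/-- `-1/j mod p` as a natural number `< p` -/
noncomputable def negInvMod (p : ℕ) (j : ℕ) : ℕ := (-(j : ZMod p)⁻¹).val

theorem negInvMod_mem {p : ℕ} [Fact p.Prime] {j : ℕ} (hj : j ∈ Finset.Ico 1 p) :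
    negInvMod p j ∈ Finset.Ico 1 p := by
  rw [Finset.mem_Ico] at hj ⊢
  have hj0 : (j : ZMod p) ≠ 0 := by
    rw [Ne, ZMod.natCast_eq_zero_iff]
    exact Nat.not_dvd_of_pos_of_lt hj.1 hj.2
  refine ⟨?_, ZMod.val_lt _⟩
  rw [Nat.one_le_iff_ne_zero, negInvMod, Ne, ZMod.val_eq_zero, neg_eq_zero, inv_eq_zero]
  exact hj0

theorem negInvMod_negInvMod {p : ℕ} [Fact p.Prime] {j : ℕ} (hj : j ∈ Finset.Ico 1 p) :
    negInvMod p (negInvMod p j) = j := by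
  rw [Finset.mem_Ico] at hj
  have h1 : ((negInvMod p j : ℕ) : ZMod p) = -(j : ZMod p)⁻¹ := by
    rw [negInvMod, ZMod.natCast_zmod_val]
  rw [negInvMod, h1, inv_neg, neg_neg, inv_inv, ZMod.val_natCast_of_lt hj.2]

theorem negInvMod_spec {p : ℕ} [Fact p.Prime] {j : ℕ} (hj : j ∈ Finset.Ico 1 p) :
    ∃ t : ℤ, (j : ℤ) * (negInvMod p j : ℕ) + 1 = p * t := by
  rw [Finset.mem_Ico] at hj
  have hj0 : (j : ZMod p) ≠ 0 := by
    rw [Ne, ZMod.natCast_eq_zero_iff]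
    exact Nat.not_dvd_of_pos_of_lt hj.1 hj.2
  have h1 : ((negInvMod p j : ℕ) : ZMod p) = -(j : ZMod p)⁻¹ := by
    rw [negInvMod, ZMod.natCast_zmod_val]
  have h2 : (((j : ℤ) * (negInvMod p j : ℕ) + 1 : ℤ) : ZMod p) = 0 := by
    push_cast
    rw [h1, mul_neg, mul_inv_cancel₀ hj0]
    ring
  obtain ⟨t, ht⟩ := (ZMod.intCast_zmod_eq_zero_iff_dvd _ p).mp h2
  exact ⟨t, ht⟩

/-! ### the Fricke trace -/

/-- the Fricke trace `(Y ∣ S) ∣ diag(p, 1) + U_p Y` -/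
noncomputable def frickeTrace (k : ℤ) (p : ℕ) (Y : ℍ → ℂ) : ℍ → ℂ :=
  (Y ∣[k] ((ModularGroup.S : SL(2, ℤ)) : GL (Fin 2) ℝ)) ∣[k] heckeDiagMatrix p + heckeU k p Y

section invariance

variable {p : ℕ} {k : ℤ} {Y : ℍ → ℂ}

theorem fricke_slash_T (hp : p ≠ 0)
    (hY : ∀ γ ∈ Gamma0 p, Y ∣[k] ((γ : SL(2, ℤ)) : GL (Fin 2) ℝ) = Y) :
    ((Y ∣[k] ((ModularGroup.S : SL(2, ℤ)) : GL (Fin 2) ℝ)) ∣[k] heckeDiagMatrix p) ∣[k]
        ((ModularGroup.T : SL(2, ℤ)) : GL (Fin 2) ℝ) =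
      (Y ∣[k] ((ModularGroup.S : SL(2, ℤ)) : GL (Fin 2) ℝ)) ∣[k] heckeDiagMatrix p := by
  rw [← SlashAction.slash_mul, ← SlashAction.slash_mul, ← mul_assoc, S_diag_T hp,
    SlashAction.slash_mul, SlashAction.slash_mul,
    hY _ (conjSL_mem_Gamma0 p 1 0 (-p) 1 (by ring) (dvd_neg.mpr dvd_rfl))]

theorem fricke_slash_S (hp : p ≠ 0)
    (hY : ∀ γ ∈ Gamma0 p, Y ∣[k] ((γ : SL(2, ℤ)) : GL (Fin 2) ℝ) = Y) :
    ((Y ∣[k] ((ModularGroup.S : SL(2, ℤ)) : GL (Fin 2) ℝ)) ∣[k] heckeDiagMatrix p) ∣[k]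
        ((ModularGroup.S : SL(2, ℤ)) : GL (Fin 2) ℝ) = Y ∣[k] heckeMatrix p 0 := by
  rw [← SlashAction.slash_mul, ← SlashAction.slash_mul, ← mul_assoc, S_diag_S hp,
    SlashAction.slash_mul, hY _ (conjSL_mem_Gamma0 p (-1) 0 0 (-1) (by ring) (dvd_zero _))]

theorem hm_zero_slash_S (hp : p ≠ 0) :
    (Y ∣[k] heckeMatrix p 0) ∣[k] ((ModularGroup.S : SL(2, ℤ)) : GL (Fin 2) ℝ) =
      (Y ∣[k] ((ModularGroup.S : SL(2, ℤ)) : GL (Fin 2) ℝ)) ∣[k] heckeDiagMatrix p := by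
  rw [← SlashAction.slash_mul, hm_zero_mul_S hp, SlashAction.slash_mul]

theorem hm_slash_S [Fact p.Prime]
    (hY : ∀ γ ∈ Gamma0 p, Y ∣[k] ((γ : SL(2, ℤ)) : GL (Fin 2) ℝ) = Y)
    {j : ℕ} (hj : j ∈ Finset.Ico 1 p) :
    (Y ∣[k] heckeMatrix p j) ∣[k] ((ModularGroup.S : SL(2, ℤ)) : GL (Fin 2) ℝ) =
      Y ∣[k] heckeMatrix p (negInvMod p j) := by
  have hp : p ≠ 0 := (Fact.out : p.Prime).ne_zero
  obtain ⟨t, ht⟩ := negInvMod_spec hj
  rw [← SlashAction.slash_mul, hm_mul_S hp j (negInvMod p j) t ht, SlashAction.slash_mul,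
    hY _ (conjSL_mem_Gamma0 p _ _ _ _ _ dvd_rfl)]

theorem hm_slash_T (hp : p ≠ 0) (j : ℕ) :
    (Y ∣[k] heckeMatrix p j) ∣[k] ((ModularGroup.T : SL(2, ℤ)) : GL (Fin 2) ℝ) =
      Y ∣[k] heckeMatrix p (j + 1) := by
  rw [← SlashAction.slash_mul, hm_mul_T hp]

theorem hm_self (hp : p ≠ 0)
    (hY : ∀ γ ∈ Gamma0 p, Y ∣[k] ((γ : SL(2, ℤ)) : GL (Fin 2) ℝ) = Y) :
    Y ∣[k] heckeMatrix p p = Y ∣[k] heckeMatrix p 0 := by
  rw [← T_mul_hm hp, SlashAction.slash_mul, hY]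
  rw [Gamma0_mem]
  simp [ModularGroup.T]

theorem heckeU_slash_T (hp : p ≠ 0)
    (hY : ∀ γ ∈ Gamma0 p, Y ∣[k] ((γ : SL(2, ℤ)) : GL (Fin 2) ℝ) = Y) :
    (heckeU k p Y) ∣[k] ((ModularGroup.T : SL(2, ℤ)) : GL (Fin 2) ℝ) = heckeU k p Y := by
  rw [heckeU_def, SlashAction.sum_slash]
  simp only [hm_slash_T hp]
  have h1 := Finset.sum_range_succ' (fun j => Y ∣[k] heckeMatrix p j) p
  have h2 := Finset.sum_range_succ (fun j => Y ∣[k] heckeMatrix p j) p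
  rw [h2, hm_self hp hY] at h1
  exact (add_right_cancel h1).symm

theorem heckeU_slash_S [Fact p.Prime]
    (hY : ∀ γ ∈ Gamma0 p, Y ∣[k] ((γ : SL(2, ℤ)) : GL (Fin 2) ℝ) = Y) :
    (heckeU k p Y) ∣[k] ((ModularGroup.S : SL(2, ℤ)) : GL (Fin 2) ℝ) =
      (Y ∣[k] ((ModularGroup.S : SL(2, ℤ)) : GL (Fin 2) ℝ)) ∣[k] heckeDiagMatrix p +
        ∑ j ∈ Finset.Ico 1 p, Y ∣[k] heckeMatrix p j := by
  have hp : p ≠ 0 := (Fact.out : p.Prime).ne_zero
  have hp0 : 0 < p := Nat.pos_of_ne_zero hp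
  rw [heckeU_def, SlashAction.sum_slash, Finset.range_eq_Ico,
    Finset.sum_eq_sum_Ico_succ_bot hp0, hm_zero_slash_S hp]
  congr 1
  refine Finset.sum_nbij' (negInvMod p) (negInvMod p) (fun j hj => negInvMod_mem hj)
    (fun j hj => negInvMod_mem hj) (fun j hj => negInvMod_negInvMod hj)
    (fun j hj => negInvMod_negInvMod hj) (fun j hj => hm_slash_S hY hj)

theorem frickeTrace_slash_T (hp : p ≠ 0)
    (hY : ∀ γ ∈ Gamma0 p, Y ∣[k] ((γ : SL(2, ℤ)) : GL (Fin 2) ℝ) = Y) :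
    (frickeTrace k p Y) ∣[k] ((ModularGroup.T : SL(2, ℤ)) : GL (Fin 2) ℝ) = frickeTrace k p Y := by
  rw [frickeTrace, SlashAction.add_slash, fricke_slash_T hp hY, heckeU_slash_T hp hY]

theorem frickeTrace_slash_S [Fact p.Prime]
    (hY : ∀ γ ∈ Gamma0 p, Y ∣[k] ((γ : SL(2, ℤ)) : GL (Fin 2) ℝ) = Y) :
    (frickeTrace k p Y) ∣[k] ((ModularGroup.S : SL(2, ℤ)) : GL (Fin 2) ℝ) = frickeTrace k p Y := by
  have hp : p ≠ 0 := (Fact.out : p.Prime).ne_zero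
  have hp0 : 0 < p := Nat.pos_of_ne_zero hp
  rw [frickeTrace, SlashAction.add_slash, fricke_slash_S hp hY, heckeU_slash_S hY, heckeU_def,
    Finset.range_eq_Ico, Finset.sum_eq_sum_Ico_succ_bot hp0]
  abel

/-- the Fricke trace is invariant under `SL(2, ℤ)` -/
theorem frickeTrace_slash [Fact p.Prime]
    (hY : ∀ γ ∈ Gamma0 p, Y ∣[k] ((γ : SL(2, ℤ)) : GL (Fin 2) ℝ) = Y) (γ : SL(2, ℤ)) :
    (frickeTrace k p Y) ∣[k] ((γ : SL(2, ℤ)) : GL (Fin 2) ℝ) = frickeTrace k p Y :=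
  SlashInvariantForm.slash_action_generators_SL2Z (frickeTrace_slash_S hY)
    (frickeTrace_slash_T (Fact.out : p.Prime).ne_zero hY) γ

theorem frickeTrace_mdifferentiable (hY : MDiff Y) : MDiff (frickeTrace k p Y) := by
  refine MDifferentiable.add ((hY.slash k _).slash k _) ?_
  rw [heckeU_def]
  exact MDifferentiable.sum fun j _ => hY.slash k _

theorem frickeTrace_isBoundedAtImInfty (hp : p ≠ 0) (hY : IsBoundedAtImInfty Y)
    (hYS : IsBoundedAtImInfty (Y ∣[k] ((ModularGroup.S : SL(2, ℤ)) : GL (Fin 2) ℝ))) :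
    IsBoundedAtImInfty (frickeTrace k p Y) := by
  refine Filter.BoundedAtFilter.add (hYS.slash k (by simp [val_heckeDiagMatrix hp])) ?_
  rw [heckeU_def]
  have h : ∀ s : Finset ℕ, IsBoundedAtImInfty (∑ j ∈ s, Y ∣[k] heckeMatrix p j) := by
    intro s
    induction s using Finset.induction_on with
    | empty =>
      simp only [Finset.sum_empty]
      exact Filter.const_boundedAtFilter _ (0 : ℂ)
    | insert a s ha ih =>
      rw [Finset.sum_insert ha]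
      exact Filter.BoundedAtFilter.add (hY.slash k (by simp [val_heckeMatrix hp])) ih
  exact h _

end invariance

/-! ### the Fricke trace as a modular form of level one -/

/-- forms on `Γ₀(p)` are invariant under `Γ₀(p)` (in the shape used above) -/
theorem slash_Gamma0_eq {p : ℕ} {k : ℤ} (Y : ModularForm (Gamma0 p) k) :
    ∀ γ ∈ Gamma0 p, (⇑Y) ∣[k] ((γ : SL(2, ℤ)) : GL (Fin 2) ℝ) = ⇑Y := fun γ hγ =>
  SlashInvariantForm.slash_action_eqn Y (γ : GL (Fin 2) ℝ) (Subgroup.mem_map_of_mem _ hγ)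

/-- the Fricke trace of a modular form on `Γ₀(p)`, as a modular form of level one -/
noncomputable def frickeTraceForm {p : ℕ} [Fact p.Prime] {k : ℤ}
    (Y : ModularForm (Gamma0 p) k) :
    ModularForm (Matrix.SpecialLinearGroup.mapGL ℝ : SL(2, ℤ) →* GL (Fin 2) ℝ).range k where
  toFun := frickeTrace k p Y
  slash_action_eq' γ hγ := by
    obtain ⟨γ₀, rfl⟩ := hγ
    exact frickeTrace_slash (slash_Gamma0_eq Y) γ₀
  holo' := frickeTrace_mdifferentiable (ModularFormClass.holo Y)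
  bdd_at_cusps' {c} hc := by
    have : NeZero p := ⟨(Fact.out : p.Prime).ne_zero⟩
    rw [OnePoint.isBoundedAt_iff_forall_SL2Z hc]
    intro γ _
    have h : (frickeTrace k p Y) ∣[k] γ = frickeTrace k p Y :=
      frickeTrace_slash (slash_Gamma0_eq Y) γ
    rw [h]
    refine frickeTrace_isBoundedAtImInfty (Fact.out : p.Prime).ne_zero ?_ ?_
    · simpa using ModularFormClass.bdd_at_infty_slash Y (1 : SL(2, ℤ))
    · exact ModularFormClass.bdd_at_infty_slash Y ModularGroup.S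

@[simp] theorem coe_frickeTraceForm {p : ℕ} [Fact p.Prime] {k : ℤ}
    (Y : ModularForm (Gamma0 p) k) : ⇑(frickeTraceForm Y) = frickeTrace k p Y := rfl

/-- in weight two the Fricke trace vanishes -/
theorem frickeTrace_weight_two {p : ℕ} [Fact p.Prime] (Y : ModularForm (Gamma0 p) 2) :
    frickeTrace 2 p Y = 0 := by
  have h := (rank_zero_iff_forall_zero.mp ModularForm.levelOne_weight_two_rank_zero)
    (frickeTraceForm Y)
  rw [← coe_frickeTraceForm, h]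
  rfl

/-- `p (Y ∣ S)(p τ) = - p⁻¹ ∑_{j < p} Y ((τ + j) / p)` for `Y ∈ M₂(Γ₀(p))` -/
theorem slash_S_heckeDiag_eq {p : ℕ} [Fact p.Prime] (Y : ModularForm (Gamma0 p) 2) (τ : ℍ) :
    (p : ℂ) * ((⇑Y) ∣[(2 : ℤ)] ModularGroup.S) (heckeDiagMatrix p • τ) =
      -((p : ℂ)⁻¹ * ∑ j ∈ Finset.range p, Y (heckeMatrix p j • τ)) := by
  have hp : p ≠ 0 := (Fact.out : p.Prime).ne_zero
  have h := congrFun (frickeTrace_weight_two Y) τ
  rw [frickeTrace, Pi.add_apply, slash_heckeDiagMatrix_apply 2 hp, heckeU_apply 2 hp,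
    Pi.zero_apply] at h
  rw [← eq_neg_iff_add_eq_zero] at h
  rw [← h]
  norm_num
  exact Or.inl rfl

end Fermat.Agent.H17
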