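import Fermat.Agent.H17.S16TrSq
import Fermat.Agent.H20.S16.Interfaces

/-!
# P-S16, row TRICK-1: the weight-4 trace identity (helper17)

For `H ∈ M₂(Γ₀(p))` and a cusp form `f ∈ S₂(Γ₀(p))` with `q`-expansions `a`, `b`:
`(p + 1) a₀ b₁ = - ∑_{i=1}^{p-1} a_{pi} b_{p(p-i)}`
(the coefficient of `q` in the trace of `(U_p H)(U_p f)`, which is `0 ∈ S₄(SL₂(ℤ))`).
-/

set_option autoImplicit false

namespace Fermat.Agent.H17

open UpperHalfPlane CongruenceSubgroup ModularForm EisensteinSeries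
open scoped MatrixGroups ModularForm Real Manifold

/-- a cusp form as a modular form -/
noncomputable def cuspAsMF {p : ℕ} {k : ℤ} (f : CuspForm (Gamma0 p) k) :
    ModularForm (Gamma0 p) k where
  toFun := f
  slash_action_eq' := f.slash_action_eq'
  holo' := f.holo'
  bdd_at_cusps' hc := ModularFormClass.bdd_at_cusps f hc

@[simp] theorem coe_cuspAsMF {p : ℕ} {k : ℤ} (f : CuspForm (Gamma0 p) k) :
    ⇑(cuspAsMF f) = ⇑f := rfl

/-- the product of two weight-2 forms, as a form of weight 4 -/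
noncomputable def mulForm {p : ℕ} (K₁ K₂ : ModularForm (Gamma0 p) 2) :
    ModularForm (Gamma0 p) 4 :=
  ModularForm.mcast (by norm_num) (K₁.mul K₂)

@[simp] theorem coe_mulForm {p : ℕ} (K₁ K₂ : ModularForm (Gamma0 p) 2) :
    ⇑(mulForm K₁ K₂) = ⇑K₁ * ⇑K₂ := rfl

theorem qExpansion_mulForm {p : ℕ} [NeZero p] (K₁ K₂ : ModularForm (Gamma0 p) 2) :
    qExpansion 1 (⇑(mulForm K₁ K₂)) = qExpansion 1 (⇑K₁) * qExpansion 1 (⇑K₂) := by
  rw [coe_mulForm]
  exact ModularForm.qExpansion_mul_coe one_pos (one_mem_strictPeriods_Gamma0 p) K₁ K₂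

theorem hasSum_mulForm {p : ℕ} [NeZero p] (K₁ K₂ : ModularForm (Gamma0 p) 2) (τ : ℍ) :
    HasSum (fun n : ℕ => PowerSeries.coeff n (qExpansion 1 (⇑K₁) * qExpansion 1 (⇑K₂)) *
      Complex.exp (2 * π * Complex.I * n * (τ : ℂ))) (K₁ τ * K₂ τ) := by
  have h := hasSum_qExpansion_Gamma0 (mulForm K₁ K₂) τ
  rw [qExpansion_mulForm] at h
  simpa using h

theorem slash_S_upForm {p : ℕ} [Fact p.Prime] (H : ModularForm (Gamma0 p) 2) (τ : ℍ) :
    ((⇑(upForm H)) ∣[(2 : ℤ)] ModularGroup.S) (heckeDiagMatrix p • τ) = -(p : ℂ)⁻¹ * H τ := by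
  have hp : p ≠ 0 := (Fact.out : p.Prime).ne_zero
  have hpc : (p : ℂ) ≠ 0 := by exact_mod_cast hp
  have h2 := slash_S_heckeDiag_eq (upForm H) τ
  rw [← heckeU_apply 2 hp, coe_upForm, heckeU_heckeU] at h2
  rw [coe_upForm]
  field_simp
  linear_combination h2

/-- the Fricke part of the trace of `(U_p H₁)(U_p H₂)` is `p H₁ H₂` -/
theorem fricke_mulForm_upForm {p : ℕ} [Fact p.Prime] (H₁ H₂ : ModularForm (Gamma0 p) 2)
    (τ : ℍ) :
    (((⇑(mulForm (upForm H₁) (upForm H₂))) ∣[(4 : ℤ)]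
      ((ModularGroup.S : SL(2, ℤ)) : GL (Fin 2) ℝ)) ∣[(4 : ℤ)]
      heckeDiagMatrix p) τ = p * (H₁ τ * H₂ τ) := by
  have hp : p ≠ 0 := (Fact.out : p.Prime).ne_zero
  have hpc : (p : ℂ) ≠ 0 := by exact_mod_cast hp
  rw [slash_heckeDiagMatrix_apply 4 hp]
  have h1 : (⇑(mulForm (upForm H₁) (upForm H₂))) ∣[(4 : ℤ)]
      ((ModularGroup.S : SL(2, ℤ)) : GL (Fin 2) ℝ) =
      ((⇑(upForm H₁)) ∣[(2 : ℤ)] ModularGroup.S) * ((⇑(upForm H₂)) ∣[(2 : ℤ)] ModularGroup.S) := by
    rw [coe_mulForm]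
    exact ModularForm.mul_slash_SL2 2 2 ModularGroup.S _ _
  rw [h1, Pi.mul_apply, slash_S_upForm, slash_S_upForm]
  norm_num
  field_simp

/-- the trace of `(U_p H₁)(U_p H₂)`, a modular form of weight 4 and level one -/
noncomputable def trMulForm {p : ℕ} [Fact p.Prime] (H₁ H₂ : ModularForm (Gamma0 p) 2) :
    ModularForm (Matrix.SpecialLinearGroup.mapGL ℝ : SL(2, ℤ) →* GL (Fin 2) ℝ).range 4 :=
  frickeTraceForm (mulForm (upForm H₁) (upForm H₂))

theorem trMulForm_apply {p : ℕ} [Fact p.Prime] (H₁ H₂ : ModularForm (Gamma0 p) 2) (τ : ℍ) :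
    trMulForm H₁ H₂ τ =
      p * (H₁ τ * H₂ τ) + heckeU 4 p (⇑(mulForm (upForm H₁) (upForm H₂))) τ := by
  have h : trMulForm H₁ H₂ τ = frickeTrace 4 p (⇑(mulForm (upForm H₁) (upForm H₂))) τ := rfl
  rw [h, frickeTrace, Pi.add_apply, fricke_mulForm_upForm]

/-- the `q`-expansion of the trace -/
theorem qExpansion_trMulForm {p : ℕ} [Fact p.Prime] (H₁ H₂ : ModularForm (Gamma0 p) 2) :
    qExpansion 1 (⇑(trMulForm H₁ H₂)) =
      (p : PowerSeries ℂ) * (qExpansion 1 (⇑H₁) * qExpansion 1 (⇑H₂)) +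
      Fermat.Agent.H6.S16UB.upSeries p
        (Fermat.Agent.H6.S16UB.upSeries p (qExpansion 1 (⇑H₁)) *
          Fermat.Agent.H6.S16UB.upSeries p (qExpansion 1 (⇑H₂))) := by
  have : NeZero p := ⟨(Fact.out : p.Prime).ne_zero⟩
  ext n
  refine (ModularFormClass.qExpansion_coeff_unique (f := trMulForm H₁ H₂) one_pos
    one_mem_strictPeriods_SL (c := fun n => PowerSeries.coeff n ((p : PowerSeries ℂ) *
      (qExpansion 1 (⇑H₁) * qExpansion 1 (⇑H₂)) + Fermat.Agent.H6.S16UB.upSeries p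
        (Fermat.Agent.H6.S16UB.upSeries p (qExpansion 1 (⇑H₁)) *
          Fermat.Agent.H6.S16UB.upSeries p (qExpansion 1 (⇑H₂))))) (fun τ => ?_) n).symm
  rw [trMulForm_apply]
  have h1 := (hasSum_mulForm H₁ H₂ τ).mul_left (p : ℂ)
  have h2 := hasSum_heckeU (mulForm (upForm H₁) (upForm H₂)) τ
  rw [qExpansion_mulForm, qExpansion_upForm, qExpansion_upForm] at h2
  have h3 := h1.add h2
  have h7 : (fun m : ℕ => (fun n => PowerSeries.coeff n ((p : PowerSeries ℂ) *
        (qExpansion 1 (⇑H₁) * qExpansion 1 (⇑H₂)) + Fermat.Agent.H6.S16UB.upSeries p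
          (Fermat.Agent.H6.S16UB.upSeries p (qExpansion 1 (⇑H₁)) *
            Fermat.Agent.H6.S16UB.upSeries p (qExpansion 1 (⇑H₂))))) m •
        Function.Periodic.qParam 1 (τ : ℂ) ^ m) =
      fun n : ℕ => (p : ℂ) * (PowerSeries.coeff n (qExpansion 1 (⇑H₁) * qExpansion 1 (⇑H₂)) *
          Complex.exp (2 * π * Complex.I * n * (τ : ℂ))) +
        PowerSeries.coeff (p * n) (Fermat.Agent.H6.S16UB.upSeries p (qExpansion 1 (⇑H₁)) *
            Fermat.Agent.H6.S16UB.upSeries p (qExpansion 1 (⇑H₂))) *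
          Complex.exp (2 * π * Complex.I * n * (τ : ℂ)) := by
    funext m
    have h8 : Function.Periodic.qParam 1 (τ : ℂ) ^ m =
        Complex.exp (2 * π * Complex.I * m * (τ : ℂ)) := by
      rw [Function.Periodic.qParam, ← Complex.exp_nat_mul]
      congr 1
      simp only [Complex.ofReal_one, div_one]
      ring_nf
    rw [h8, smul_eq_mul]
    beta_reduce
    rw [map_add, coeff_upSeries,
      show (p : PowerSeries ℂ) = PowerSeries.C (p : ℂ) from (map_natCast PowerSeries.C p).symm,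
      PowerSeries.coeff_C_mul]
    ring
  rw [h7]
  exact h3

/-- if one of the two forms is a cusp form, the trace vanishes -/
theorem qExpansion_trMulForm_cusp {p : ℕ} [Fact p.Prime] (H : ModularForm (Gamma0 p) 2)
    (f : CuspForm (Gamma0 p) 2) :
    qExpansion 1 (⇑(trMulForm H (cuspAsMF f))) = 0 := by
  have : NeZero p := ⟨(Fact.out : p.Prime).ne_zero⟩
  obtain ⟨c, hc⟩ := exists_smul_E₄ (trMulForm H (cuspAsMF f))
  have h1 := qExpansion_trMulForm H (cuspAsMF f)
  have h2 : qExpansion 1 (⇑(trMulForm H (cuspAsMF f))) = c • qExpansion 1 (⇑E₄) := by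
    rw [hc]
    exact ModularForm.qExpansion_smul one_pos one_mem_strictPeriods_SL c E₄
  have hb0 : PowerSeries.coeff 0 (qExpansion 1 (⇑(cuspAsMF f))) = 0 := by
    rw [coe_cuspAsMF]
    exact CuspFormClass.qExpansion_coeff_zero f one_pos (one_mem_strictPeriods_Gamma0 p)
  have h3 := congrArg (PowerSeries.coeff 0) h1
  rw [h2, qExpansion_E₄_sigmaSeries] at h3
  have h5 : PowerSeries.coeff 0 (c • (1 + 240 *
      (Fermat.Agent.H6.S16UB.sigmaSeries 3).map (Int.castRingHom ℂ))) = c := by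
    rw [PowerSeries.coeff_smul, map_add,
      show (240 : PowerSeries ℂ) = PowerSeries.C (240 : ℂ) from
        (map_ofNat PowerSeries.C 240).symm, PowerSeries.coeff_C_mul, PowerSeries.coeff_map,
      Fermat.Agent.H6.S16UB.sigmaSeries, PowerSeries.coeff_mk]
    simp
  have h4 : c = 0 := by
    rw [h5] at h3
    rw [h3, map_add, coeff_upSeries, mul_zero,
      show (p : PowerSeries ℂ) = PowerSeries.C (p : ℂ) from (map_natCast PowerSeries.C p).symm,
      PowerSeries.coeff_C_mul]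
    simp only [PowerSeries.coeff_mul, Finset.Nat.antidiagonal_zero,
      Finset.sum_singleton, coeff_upSeries, mul_zero, hb0]
    ring
  rw [h2, h4, zero_smul]

/-- **P-S16, TRICK-1.** -/
theorem trick1Statement : Fermat.Agent.H20.S16.Trick1Statement := by
  intro p hp H f a b ha hb
  have : Fact p.Prime := ⟨hp⟩
  have : NeZero p := ⟨hp.ne_zero⟩
  have h0 := qExpansion_trMulForm_cusp H f
  rw [qExpansion_trMulForm] at h0
  have h1 := congrArg (PowerSeries.coeff 1) h0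
  rw [map_add, coeff_upSeries, mul_one,
    show (p : PowerSeries ℂ) = PowerSeries.C (p : ℂ) from (map_natCast PowerSeries.C p).symm,
    PowerSeries.coeff_C_mul, map_zero] at h1
  have hb0 : b 0 = 0 := by
    have h := CuspFormClass.qExpansion_coeff_zero f one_pos (one_mem_strictPeriods_Gamma0 p)
    rw [hb 0] at h
    exact_mod_cast h
  have hbpp : b (p * p) = b 1 := by
    have h := upSqStatement p hp (cuspAsMF f) 1
    rw [coe_cuspAsMF, hb, hb, mul_one] at h
    exact_mod_cast h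
  -- the coefficient of `q` in `H f`
  have h2 : PowerSeries.coeff 1 (qExpansion 1 (⇑H) * qExpansion 1 (⇑(cuspAsMF f))) =
      ((a 0 * b 1 : ℤ) : ℂ) := by
    rw [PowerSeries.coeff_mul, Finset.Nat.sum_antidiagonal_eq_sum_range_succ
      (fun i j => PowerSeries.coeff i (qExpansion 1 (⇑H)) *
        PowerSeries.coeff j (qExpansion 1 (⇑(cuspAsMF f)))) 1]
    simp [Finset.sum_range_succ, ha, hb, hb0]
  -- the coefficient of `q^p` in `(U_p H)(U_p f)`
  have h3 : PowerSeries.coeff p (Fermat.Agent.H6.S16UB.upSeries p (qExpansion 1 (⇑H)) *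
      Fermat.Agent.H6.S16UB.upSeries p (qExpansion 1 (⇑(cuspAsMF f)))) =
      ((a 0 * b 1 + ∑ i ∈ Finset.Ico 1 p, a (p * i) * b (p * (p - i)) : ℤ) : ℂ) := by
    rw [PowerSeries.coeff_mul, Finset.Nat.sum_antidiagonal_eq_sum_range_succ
      (fun i j => PowerSeries.coeff i (Fermat.Agent.H6.S16UB.upSeries p (qExpansion 1 (⇑H))) *
        PowerSeries.coeff j (Fermat.Agent.H6.S16UB.upSeries p
          (qExpansion 1 (⇑(cuspAsMF f))))) p]
    simp only [coeff_upSeries, coe_cuspAsMF, ha, hb]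
    rw [Finset.sum_range_succ, Finset.range_eq_Ico, Finset.sum_eq_sum_Ico_succ_bot hp.pos]
    simp only [Nat.sub_self, mul_zero, hb0, Nat.sub_zero, hbpp, zero_add]
    push_cast
    ring
  rw [h2, h3] at h1
  have h4 : ((p : ℤ) * (a 0 * b 1) + (a 0 * b 1 +
      ∑ i ∈ Finset.Ico 1 p, a (p * i) * b (p * (p - i))) : ℤ) = 0 := by
    have : (((p : ℤ) * (a 0 * b 1) + (a 0 * b 1 +
      ∑ i ∈ Finset.Ico 1 p, a (p * i) * b (p * (p - i))) : ℤ) : ℂ) = 0 := by
      push_cast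
      push_cast at h1
      exact h1
    exact_mod_cast this
  linear_combination h4

end Fermat.Agent.H17
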