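import Fermat.Agent.H17.S16Conj
import Fermat.Agent.H6.S16UB.Interfaces

/-!
# P-S16, row UB-UP: `U_p` on `M₂(Γ₀(p))` (helper17)

* `hasSum_heckeU` : the `q`-expansion of `U_p Y` is `∑ a_{pn} qⁿ` (any weight);
* `upForm H` : `U_p H` as a modular form on `Γ₀(p)` (weight 2; it is minus the Fricke transform);
* `upStatement`, `upSqStatement` : the interface statements of `Fermat.Agent.H6.S16UB`.
-/

set_option autoImplicit false

namespace Fermat.Agent.H17

open UpperHalfPlane CongruenceSubgroup ModularForm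
open scoped MatrixGroups ModularForm Real Manifold Pointwise

/-! ### the `q`-expansion of `U_p Y` -/

theorem coe_hm_smul' {p : ℕ} (hp : p ≠ 0) (i : ℕ) (w : ℍ) :
    ((heckeMatrix p i • w : ℍ) : ℂ) = ((w : ℂ) + i) / p :=
  coe_heckeMatrix_smul hp i w

/-- the expansion of `U_p Y` -/
theorem hasSum_heckeU {p : ℕ} [NeZero p] {k : ℤ} (Y : ModularForm (Gamma0 p) k) (w : ℍ) :
    HasSum (fun n : ℕ => PowerSeries.coeff (p * n) (qExpansion 1 (⇑Y)) *
        Complex.exp (2 * π * Complex.I * n * (w : ℂ)))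
      (heckeU k p (⇑Y) w) := by
  have hp : p ≠ 0 := NeZero.ne p
  have hp' : (p : ℂ) ≠ 0 := by exact_mod_cast hp
  rw [heckeU_apply k hp]
  have h1 : HasSum (fun n : ℕ => ∑ i ∈ Finset.range p,
      PowerSeries.coeff n (qExpansion 1 (⇑Y)) *
        Complex.exp (2 * π * Complex.I * n * ((heckeMatrix p i • w : ℍ) : ℂ)))
      (∑ i ∈ Finset.range p, Y (heckeMatrix p i • w)) :=
    hasSum_sum fun i _ => hasSum_qExpansion_Gamma0 Y _
  have h2 : ∀ n : ℕ, ∑ i ∈ Finset.range p,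
      PowerSeries.coeff n (qExpansion 1 (⇑Y)) *
        Complex.exp (2 * π * Complex.I * n * ((heckeMatrix p i • w : ℍ) : ℂ)) =
      if p ∣ n then PowerSeries.coeff n (qExpansion 1 (⇑Y)) *
        Complex.exp (2 * π * Complex.I * n * (w : ℂ) / p) * p else 0 := by
    intro n
    have h3 : ∀ i : ℕ, Complex.exp (2 * π * Complex.I * n *
          ((heckeMatrix p i • w : ℍ) : ℂ)) =
        Complex.exp (2 * π * Complex.I * n * (w : ℂ) / p) *
          Complex.exp (2 * π * Complex.I * n * i / p) := by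
      intro i
      rw [coe_hm_smul' hp, ← Complex.exp_add]
      congr 1
      field_simp
    simp only [h3]
    rw [← Finset.mul_sum, ← Finset.mul_sum, sum_exp_mul_div p hp n]
    split_ifs <;> simp [mul_assoc]
  simp only [h2] at h1
  have hinj : Function.Injective (fun m : ℕ => p * m) := fun a b h =>
    Nat.eq_of_mul_eq_mul_left (Nat.pos_of_ne_zero hp) h
  have h4 := (Function.Injective.hasSum_iff hinj (f := fun n : ℕ =>
      if p ∣ n then PowerSeries.coeff n (qExpansion 1 (⇑Y)) *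
        Complex.exp (2 * π * Complex.I * n * (w : ℂ) / p) * p else 0) (by
      intro n hn
      rw [if_neg]
      rintro ⟨m, rfl⟩
      exact hn ⟨m, rfl⟩)).mpr h1
  have h5 := h4.mul_left ((p : ℂ)⁻¹)
  have h7 : (fun n : ℕ => PowerSeries.coeff (p * n) (qExpansion 1 (⇑Y)) *
        Complex.exp (2 * π * Complex.I * n * (w : ℂ))) =
      fun b => (p : ℂ)⁻¹ * ((fun n : ℕ =>
        if p ∣ n then PowerSeries.coeff n (qExpansion 1 (⇑Y)) *
          Complex.exp (2 * π * Complex.I * n * (w : ℂ) / p) * p else 0) ∘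
          fun m => p * m) b := by
    funext m
    simp only [Function.comp_apply, dvd_mul_right, if_true]
    have h6 : Complex.exp (2 * π * Complex.I * ((p * m : ℕ) : ℂ) * (w : ℂ) / p) =
        Complex.exp (2 * π * Complex.I * m * (w : ℂ)) := by
      congr 1
      push_cast
      field_simp
    rw [h6]
    field_simp
  rw [h7]
  exact h5

/-! ### the Fricke matrix -/

/-- the Fricke matrix `[[0, -1], [p, 0]] = S diag(p, 1)` -/
noncomputable def frickeGL (p : ℕ) : GL (Fin 2) ℝ :=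
  ((ModularGroup.S : SL(2, ℤ)) : GL (Fin 2) ℝ) * heckeDiagMatrix p

theorem det_SL_eq (γ : SL(2, ℤ)) : γ 0 0 * γ 1 1 - γ 0 1 * γ 1 0 = 1 := by
  have h := γ.det_coe
  rw [Matrix.det_fin_two] at h
  exact h

/-- the Fricke matrix normalises `Γ₀(p)` -/
theorem frickeGL_mul {p : ℕ} (hp : p ≠ 0) (γ : SL(2, ℤ)) (c' : ℤ) (hc : γ 1 0 = p * c') :
    frickeGL p * ((γ : SL(2, ℤ)) : GL (Fin 2) ℝ) =
      ((conjSL (γ 1 1) (-c') (-(p * γ 0 1)) (γ 0 0)
        (by linear_combination det_SL_eq γ + γ 0 1 * hc) : SL(2, ℤ)) : GL (Fin 2) ℝ) *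
        frickeGL p := by
  apply Units.ext
  have hc' : ((γ 1 0 : ℤ) : ℝ) = p * c' := by exact_mod_cast hc
  simp only [frickeGL, Units.val_mul, val_heckeDiagMatrix hp, coeGL_S, coeGL_conjSL, coeGL_SL γ]
  ext a b
  fin_cases a <;> fin_cases b <;> simp [Matrix.mul_apply, Fin.sum_univ_two] <;>
    first | ring1 | linear_combination hc'

theorem exists_of_mem_Gamma0 {p : ℕ} {γ : SL(2, ℤ)} (hγ : γ ∈ Gamma0 p) :
    ∃ c' : ℤ, γ 1 0 = p * c' := by
  rw [Gamma0_mem] at hγ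
  exact (ZMod.intCast_zmod_eq_zero_iff_dvd _ p).mp hγ

theorem exists_frickeGL_mul {p : ℕ} (hp : p ≠ 0) {γ : SL(2, ℤ)} (hγ : γ ∈ Gamma0 p) :
    ∃ γ' ∈ Gamma0 p, frickeGL p * ((γ : SL(2, ℤ)) : GL (Fin 2) ℝ) =
      ((γ' : SL(2, ℤ)) : GL (Fin 2) ℝ) * frickeGL p := by
  obtain ⟨c', hc⟩ := exists_of_mem_Gamma0 hγ
  exact ⟨_, conjSL_mem_Gamma0 p _ _ _ _ _ (dvd_neg.mpr (dvd_mul_right _ _)),
    frickeGL_mul hp γ c' hc⟩

theorem fricke_slash_Gamma0 {p : ℕ} (hp : p ≠ 0) {k : ℤ} {Y : ℍ → ℂ}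
    (hY : ∀ γ ∈ Gamma0 p, Y ∣[k] ((γ : SL(2, ℤ)) : GL (Fin 2) ℝ) = Y)
    (γ : SL(2, ℤ)) (hγ : γ ∈ Gamma0 p) :
    (Y ∣[k] frickeGL p) ∣[k] ((γ : SL(2, ℤ)) : GL (Fin 2) ℝ) = Y ∣[k] frickeGL p := by
  obtain ⟨γ', hγ', h⟩ := exists_frickeGL_mul hp hγ
  rw [← SlashAction.slash_mul, h, SlashAction.slash_mul, hY _ hγ']

theorem conj_fricke_le {p : ℕ} (hp : p ≠ 0) :
    ConjAct.toConjAct (frickeGL p) • (Subgroup.map (Matrix.SpecialLinearGroup.mapGL ℝ) (Gamma0 p)) ≤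
      Subgroup.map (Matrix.SpecialLinearGroup.mapGL ℝ) (Gamma0 p) := by
  intro x hx
  rw [Subgroup.mem_pointwise_smul_iff_inv_smul_mem, ← ConjAct.toConjAct_inv,
    ConjAct.toConjAct_smul, inv_inv] at hx
  obtain ⟨γ, hγ, hγx⟩ := hx
  obtain ⟨γ', hγ', h1⟩ := exists_frickeGL_mul hp hγ
  have h2 : ((γ : SL(2, ℤ)) : GL (Fin 2) ℝ) = (frickeGL p)⁻¹ * x * frickeGL p := hγx
  rw [h2] at h1
  have h3 : x * frickeGL p = ((γ' : SL(2, ℤ)) : GL (Fin 2) ℝ) * frickeGL p := by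
    rw [← h1]; group
  rw [mul_right_cancel h3]
  exact Subgroup.mem_map_of_mem _ hγ'

/-! ### `U_p H` as a modular form -/

theorem heckeU_two_eq {p : ℕ} [Fact p.Prime] (H : ModularForm (Gamma0 p) 2) :
    heckeU 2 p (⇑H) = -((⇑H) ∣[(2 : ℤ)] frickeGL p) := by
  have h := frickeTrace_weight_two H
  rw [frickeTrace, ← SlashAction.slash_mul] at h
  exact eq_neg_of_add_eq_zero_right h

theorem heckeU_two_slash {p : ℕ} [Fact p.Prime] (H : ModularForm (Gamma0 p) 2)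
    (γ : SL(2, ℤ)) (hγ : γ ∈ Gamma0 p) :
    (heckeU 2 p (⇑H)) ∣[(2 : ℤ)] ((γ : SL(2, ℤ)) : GL (Fin 2) ℝ) = heckeU 2 p (⇑H) := by
  rw [heckeU_two_eq, SlashAction.neg_slash,
    fricke_slash_Gamma0 (Fact.out : p.Prime).ne_zero (slash_Gamma0_eq H) γ hγ]

theorem heckeU_mdifferentiable {p : ℕ} {k : ℤ} {Y : ℍ → ℂ} (hY : MDiff Y) :
    MDiff (heckeU k p Y) := by
  rw [heckeU_def]
  exact MDifferentiable.sum fun j _ => hY.slash k _

theorem heckeU_two_isBoundedAt {p : ℕ} [Fact p.Prime] (H : ModularForm (Gamma0 p) 2)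
    {c : OnePoint ℝ}
    (hc : IsCusp c (Subgroup.map (Matrix.SpecialLinearGroup.mapGL ℝ) (Gamma0 p))) :
    c.IsBoundedAt (heckeU 2 p (⇑H)) 2 := by
  rw [heckeU_two_eq]
  have h1 : (frickeGL p • c).IsBoundedAt (⇑H) 2 :=
    ModularFormClass.bdd_at_cusps H
      ((hc.smul (frickeGL p)).mono (conj_fricke_le (Fact.out : p.Prime).ne_zero))
  rw [OnePoint.IsBoundedAt.smul_iff] at h1
  intro g hg
  have h2 := h1 g hg
  rw [SlashAction.neg_slash]
  exact h2.neg_left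

/-- `U_p H` as a modular form on `Γ₀(p)` -/
noncomputable def upForm {p : ℕ} [Fact p.Prime] (H : ModularForm (Gamma0 p) 2) :
    ModularForm (Gamma0 p) 2 where
  toFun := heckeU 2 p (⇑H)
  slash_action_eq' γ hγ := by
    obtain ⟨γ₀, hγ₀, rfl⟩ := hγ
    exact heckeU_two_slash H γ₀ hγ₀
  holo' := heckeU_mdifferentiable (ModularFormClass.holo H)
  bdd_at_cusps' hc := heckeU_two_isBoundedAt H hc

@[simp] theorem coe_upForm {p : ℕ} [Fact p.Prime] (H : ModularForm (Gamma0 p) 2) :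
    ⇑(upForm H) = heckeU 2 p (⇑H) := rfl

theorem qExpansion_upForm {p : ℕ} [Fact p.Prime] (H : ModularForm (Gamma0 p) 2) :
    qExpansion 1 (⇑(upForm H)) = Fermat.Agent.H6.S16UB.upSeries p (qExpansion 1 (⇑H)) := by
  have : NeZero p := ⟨(Fact.out : p.Prime).ne_zero⟩
  ext n
  rw [Fermat.Agent.H6.S16UB.upSeries, PowerSeries.coeff_mk]
  refine (ModularFormClass.qExpansion_coeff_unique (f := upForm H) one_pos
    (one_mem_strictPeriods_Gamma0 p) (c := fun n => PowerSeries.coeff (p * n)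
      (qExpansion 1 (⇑H))) (fun τ => ?_) n).symm
  have h := hasSum_heckeU H τ
  rw [coe_upForm]
  have h7 : (fun m : ℕ => (fun n => PowerSeries.coeff (p * n) (qExpansion 1 (⇑H))) m •
        Function.Periodic.qParam 1 (τ : ℂ) ^ m) =
      fun n : ℕ => PowerSeries.coeff (p * n) (qExpansion 1 (⇑H)) *
        Complex.exp (2 * π * Complex.I * n * (τ : ℂ)) := by
    funext m
    rw [Function.Periodic.qParam, ← Complex.exp_nat_mul, smul_eq_mul]
    congr 2
    simp only [Complex.ofReal_one, div_one]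
    ring_nf
  rw [h7]
  exact h

/-- **P-S16, UB-UP (1).** -/
theorem upStatement : Fermat.Agent.H6.S16UB.UpStatement := by
  intro p hp H
  have : Fact p.Prime := ⟨hp⟩
  exact ⟨upForm H, qExpansion_upForm H⟩

/-! ### `U_p² = 1` -/

theorem val_frickeGL_sq {p : ℕ} (hp : p ≠ 0) :
    ((frickeGL p * frickeGL p : GL (Fin 2) ℝ) : Matrix (Fin 2) (Fin 2) ℝ) =
      !![-(p : ℝ), 0; 0, -(p : ℝ)] := by
  simp only [frickeGL, Units.val_mul, val_heckeDiagMatrix hp, coeGL_S]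
  ext a b
  fin_cases a <;> fin_cases b <;> simp [Matrix.mul_apply, Fin.sum_univ_two]

theorem slash_frickeGL_sq {p : ℕ} (hp : p ≠ 0) (f : ℍ → ℂ) :
    f ∣[(2 : ℤ)] (frickeGL p * frickeGL p) = f := by
  have hp' : (p : ℝ) ≠ 0 := by exact_mod_cast hp
  have hpc : (p : ℂ) ≠ 0 := by exact_mod_cast hp
  have hdet : ((frickeGL p * frickeGL p).det : ℝ) = (p : ℝ) ^ 2 := by
    rw [Matrix.GeneralLinearGroup.val_det_apply, val_frickeGL_sq hp, Matrix.det_fin_two_of]
    ring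
  have hpos : 0 < ((frickeGL p * frickeGL p).det : ℝ) := by
    rw [hdet]; positivity
  have hσ : UpperHalfPlane.σ (frickeGL p * frickeGL p) = .refl ℝ ℂ := by
    rw [UpperHalfPlane.σ, if_pos hpos]
  have hden : ∀ τ : ℍ, denom (frickeGL p * frickeGL p) τ = -(p : ℂ) := by
    intro τ
    simp [denom, val_frickeGL_sq hp]
  have hsmul : ∀ τ : ℍ, (frickeGL p * frickeGL p) • τ = τ := by
    intro τ
    apply UpperHalfPlane.ext
    rw [UpperHalfPlane.coe_smul_of_det_pos hpos]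
    simp only [num, denom, val_frickeGL_sq hp]
    simp
    field_simp
  ext τ
  rw [ModularForm.slash_apply, hσ, hdet, hden, hsmul]
  simp only [ContinuousAlgEquiv.refl_apply]
  have h1 : |(p : ℝ) ^ 2| = (p : ℝ) ^ 2 := abs_of_nonneg (by positivity)
  rw [h1]
  push_cast
  have h2 : ((p : ℂ) ^ 2) ^ (1 : ℤ) * (-(p : ℂ)) ^ (-(2 : ℤ)) = 1 := by
    rw [zpow_one, zpow_neg, show (-(p : ℂ)) ^ (2 : ℤ) = (p : ℂ) ^ 2 by
      rw [zpow_ofNat]; ring]
    exact mul_inv_cancel₀ (pow_ne_zero 2 hpc)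
  rw [mul_assoc, h2, mul_one]

theorem heckeU_heckeU {p : ℕ} [Fact p.Prime] (H : ModularForm (Gamma0 p) 2) :
    heckeU 2 p (heckeU 2 p (⇑H)) = ⇑H := by
  have hp : p ≠ 0 := (Fact.out : p.Prime).ne_zero
  have h1 := heckeU_two_eq (upForm H)
  rw [coe_upForm, heckeU_two_eq H, SlashAction.neg_slash, neg_neg, ← SlashAction.slash_mul,
    slash_frickeGL_sq hp] at h1
  rw [← heckeU_two_eq H] at h1
  exact h1

/-- **P-S16, UB-UP (2).** -/
theorem upSqStatement : Fermat.Agent.H6.S16UB.UpSqStatement := by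
  intro p hp H n
  have : Fact p.Prime := ⟨hp⟩
  have h1 : qExpansion 1 (⇑(upForm (upForm H))) = qExpansion 1 (⇑H) := by
    rw [coe_upForm, coe_upForm, heckeU_heckeU]
  rw [qExpansion_upForm, qExpansion_upForm] at h1
  have h2 := congrArg (PowerSeries.coeff n) h1
  simpa [Fermat.Agent.H6.S16UB.upSeries] using h2

end Fermat.Agent.H17
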